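import Fermat.Agent.S23.Defs
import Fermat.Prelude.Thm_CongruenceSubgroup_one_mem_strictPeriods_Gamma0

/-!
# S23 / WP-H: the algebra of "nice" functions and the `q`-expansion algebra hom

`niceAlg` is the `ℂ`-algebra of holomorphic, `1`-periodic functions on `ℍ` bounded at `i∞`;
`qExp : niceAlg →ₐ[ℂ] ℂ⟦X⟧` is the (injective) `q`-expansion map.
-/

set_option autoImplicit false

open UpperHalfPlane ModularForm CongruenceSubgroup
open scoped MatrixGroups ModularForm Manifold

namespace Fermat.Agent.S23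

/-- Holomorphic, `1`-periodic functions on `ℍ` that are bounded at `i∞`. -/
def IsNice (F : ℍ → ℂ) : Prop :=
  Function.Periodic (F ∘ ofComplex) ((1 : ℝ) : ℂ) ∧ MDiff F ∧ IsBoundedAtImInfty F

theorem IsNice.analyticAt {F : ℍ → ℂ} (hF : IsNice F) : AnalyticAt ℂ (cuspFunction 1 F) 0 :=
  UpperHalfPlane.analyticAt_cuspFunction_zero one_pos hF.1 hF.2.1 hF.2.2

theorem IsNice.const (c : ℂ) : IsNice (fun _ : ℍ => c) := by
  refine ⟨fun _ => rfl, mdifferentiable_const, ?_⟩
  exact Filter.const_boundedAtFilter _ c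

theorem IsNice.add {F G : ℍ → ℂ} (hF : IsNice F) (hG : IsNice G) : IsNice (F + G) := by
  refine ⟨?_, hF.2.1.add hG.2.1, hF.2.2.add hG.2.2⟩
  intro w
  have h1 := hF.1 w
  have h2 := hG.1 w
  simp only [Function.comp_apply, Pi.add_apply] at h1 h2 ⊢
  rw [h1, h2]

theorem IsNice.mul {F G : ℍ → ℂ} (hF : IsNice F) (hG : IsNice G) : IsNice (F * G) := by
  refine ⟨?_, hF.2.1.mul hG.2.1, hF.2.2.mul hG.2.2⟩
  intro w
  have h1 := hF.1 w
  have h2 := hG.1 w
  simp only [Function.comp_apply, Pi.mul_apply] at h1 h2 ⊢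
  rw [h1, h2]

/-- The algebra of nice functions. -/
noncomputable def niceAlg : Subalgebra ℂ (ℍ → ℂ) where
  carrier := {F | IsNice F}
  mul_mem' := fun hF hG => IsNice.mul hF hG
  add_mem' := fun hF hG => IsNice.add hF hG
  algebraMap_mem' := fun c => IsNice.const c

theorem mem_niceAlg {F : ℍ → ℂ} : F ∈ niceAlg ↔ IsNice F := Iff.rfl

/-- The `q`-expansion, as an algebra homomorphism on nice functions. -/
noncomputable def qExp : niceAlg →ₐ[ℂ] PowerSeries ℂ where
  toFun F := qExpansion 1 (F : ℍ → ℂ)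
  map_one' := by
    exact qExpansion_one 1
  map_mul' := by
    intro F G
    exact qExpansion_mul (IsNice.analyticAt F.2) (IsNice.analyticAt G.2)
  map_zero' := by
    exact qExpansion_zero 1
  map_add' := by
    intro F G
    exact qExpansion_add (IsNice.analyticAt F.2) (IsNice.analyticAt G.2)
  commutes' := by
    intro c
    have h1 : ((algebraMap ℂ niceAlg c : niceAlg) : ℍ → ℂ) = c • (1 : ℍ → ℂ) := by
      funext z
      simp [Algebra.algebraMap_eq_smul_one]
    have h2 : AnalyticAt ℂ (cuspFunction 1 (1 : ℍ → ℂ)) 0 :=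
      IsNice.analyticAt (IsNice.const 1)
    show qExpansion 1 ((algebraMap ℂ niceAlg c : niceAlg) : ℍ → ℂ) = algebraMap ℂ (PowerSeries ℂ) c
    rw [h1, qExpansion_smul h2, qExpansion_one, Algebra.algebraMap_eq_smul_one]

theorem qExp_apply (F : niceAlg) : qExp F = qExpansion 1 (F : ℍ → ℂ) := rfl

theorem qExp_injective : Function.Injective qExp := by
  rw [injective_iff_map_eq_zero]
  intro F hF
  rw [qExp_apply, qExpansion_eq_zero_iff one_pos F.2.1 F.2.2.1 F.2.2.2] at hF
  exact Subtype.ext hF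

/-- Evaluation at a point, as an algebra homomorphism on nice functions. -/
noncomputable def evalAt (z : ℍ) : niceAlg →ₐ[ℂ] ℂ :=
  (Pi.evalAlgHom ℂ (fun _ : ℍ => ℂ) z).comp niceAlg.val

theorem evalAt_apply (z : ℍ) (F : niceAlg) : evalAt z F = (F : ℍ → ℂ) z := rfl

theorem isNice_modularForm {N : ℕ} [NeZero N] {k : ℤ} (f : ModularForm (Gam N) k) :
    IsNice (f : ℍ → ℂ) := by
  refine ⟨?_, ModularFormClass.holo f, ModularFormClass.bdd_at_infty f⟩
  exact SlashInvariantFormClass.periodic_comp_ofComplex f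
    (CongruenceSubgroup.one_mem_strictPeriods_Gamma0 N)

theorem isNice_cuspForm {N : ℕ} [NeZero N] {k : ℤ} (f : CuspForm (Gam N) k) :
    IsNice (f : ℍ → ℂ) := by
  refine ⟨?_, CuspFormClass.holo f, (CuspFormClass.zero_at_infty f).isBoundedAtImInfty⟩
  exact SlashInvariantFormClass.periodic_comp_ofComplex f
    (CongruenceSubgroup.one_mem_strictPeriods_Gamma0 N)

theorem isNice_levelOne {k : ℤ} (f : ModularForm 𝒮ℒ k) : IsNice (f : ℍ → ℂ) := by
  refine ⟨?_, ModularFormClass.holo f, ModularFormClass.bdd_at_infty f⟩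
  exact SlashInvariantFormClass.periodic_comp_ofComplex f _root_.one_mem_strictPeriods_SL

/-- A modular form of level `Γ₀(N)` as an element of `niceAlg`. -/
noncomputable def ofMF {N : ℕ} [NeZero N] {k : ℤ} (f : ModularForm (Gam N) k) : niceAlg :=
  ⟨f, isNice_modularForm f⟩

/-- A cusp form of level `Γ₀(N)` as an element of `niceAlg`. -/
noncomputable def ofCF {N : ℕ} [NeZero N] {k : ℤ} (f : CuspForm (Gam N) k) : niceAlg :=
  ⟨f, isNice_cuspForm f⟩

/-- A modular form of level one as an element of `niceAlg`. -/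
noncomputable def ofL1 {k : ℤ} (f : ModularForm 𝒮ℒ k) : niceAlg :=
  ⟨f, isNice_levelOne f⟩

@[simp] theorem coe_ofMF {N : ℕ} [NeZero N] {k : ℤ} (f : ModularForm (Gam N) k) :
    ((ofMF f : niceAlg) : ℍ → ℂ) = f := rfl

@[simp] theorem coe_ofCF {N : ℕ} [NeZero N] {k : ℤ} (f : CuspForm (Gam N) k) :
    ((ofCF f : niceAlg) : ℍ → ℂ) = f := rfl

@[simp] theorem coe_ofL1 {k : ℤ} (f : ModularForm 𝒮ℒ k) :
    ((ofL1 f : niceAlg) : ℍ → ℂ) = f := rfl

theorem qExp_ofMF {N : ℕ} [NeZero N] {k : ℤ} (f : ModularForm (Gam N) k) :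
    qExp (ofMF f) = qExpansion 1 f := rfl

theorem qExp_ofCF {N : ℕ} [NeZero N] {k : ℤ} (f : CuspForm (Gam N) k) :
    qExp (ofCF f) = qExpansion 1 f := rfl

theorem qExp_ofL1 {k : ℤ} (f : ModularForm 𝒮ℒ k) : qExp (ofL1 f) = qExpansion 1 f := rfl

/-- Two nice functions agreeing pointwise are equal. -/
theorem niceAlg_ext {F G : niceAlg} (h : ∀ z, evalAt z F = evalAt z G) : F = G :=
  Subtype.ext (funext h)

theorem qExp_eq_zero_iff (F : niceAlg) : qExp F = 0 ↔ F = 0 := by
  constructor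
  · intro h
    exact qExp_injective (by rw [h, map_zero])
  · intro h
    rw [h, map_zero]

end Fermat.Agent.S23
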