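import Mathlib
import Fermat.Prelude.Def_ModularForm_HeckeOperator
import Fermat.Prelude.Def_CuspForm_IntegralStructure

/-!
# S23: shared definitions

Basic shared definitions for the proof that `S_k(Γ₀(N))` is spanned by forms with integral
`q`-expansion (Galois descent through the function field of `X₀(N)`).
-/

set_option autoImplicit false

open UpperHalfPlane ModularForm CongruenceSubgroup
open scoped MatrixGroups ModularForm Manifold

namespace Fermat.Agent.S23

/-- `Γ₀(N)` as a subgroup of `GL(2,ℝ)` (this is the coercion used in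
`CuspForm (CongruenceSubgroup.Gamma0 N) k`). -/
abbrev Gam (N : ℕ) : Subgroup (GL (Fin 2) ℝ) :=
  Subgroup.map (Matrix.SpecialLinearGroup.mapGL ℝ) (CongruenceSubgroup.Gamma0 N)

/-- The coset space `SL(2,ℤ) / Γ₀(N)` (as used by `SlashInvariantForm.quotientFunc`). -/
abbrev Quo (N : ℕ) : Type := ↥𝒮ℒ ⧸ (Gam N).subgroupOf 𝒮ℒ

/-- The index `[SL(2,ℤ) : Γ₀(N)]`. -/
noncomputable def psi (N : ℕ) : ℕ := Nat.card (Quo N)

/-- A fixed enumeration of the cosets. -/
noncomputable def quoEquiv (N : ℕ) [NeZero N] : Fin (psi N) ≃ Quo N :=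
  (Finite.equivFin (Quo N)).symm

/-- The index of the trivial coset. -/
noncomputable def i0 (N : ℕ) [NeZero N] : Fin (psi N) :=
  (quoEquiv N).symm (QuotientGroup.mk (1 : ↥𝒮ℒ))

/-- The `i`-th conjugate of a `Γ₀(N)`-invariant form `f` of weight `k`:
`cj f i = f ∣[k] h⁻¹` where `h` represents the `i`-th coset of `SL(2,ℤ)/Γ₀(N)`. -/
noncomputable def cj {N : ℕ} [NeZero N] {k : ℤ} {F : Type*} [FunLike F ℍ ℂ]
    [SlashInvariantFormClass F (Gam N) k] (f : F) (i : Fin (psi N)) : ℍ → ℂ :=
  SlashInvariantForm.quotientFunc (ℋ := 𝒮ℒ) f (quoEquiv N i)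

/-- The primitive element `t(z) = E₄(N z)` (as a function). -/
noncomputable def tFun (N : ℕ) : ℍ → ℂ :=
  fun z => ModularForm.E₄ (ModularForm.heckeDiagMatrix N • z)

/-- A power series over `ℂ` all of whose coefficients are rational. -/
def IsRatSeries (P : PowerSeries ℂ) : Prop := ∀ n : ℕ, ∃ r : ℚ, PowerSeries.coeff n P = (r : ℂ)

/-- A power series over `ℂ` all of whose coefficients are integers. -/
def IsIntSeries (P : PowerSeries ℂ) : Prop := ∀ n : ℕ, ∃ m : ℤ, PowerSeries.coeff n P = (m : ℂ)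

/-- The `ℂ`-span of the integral power series; it is a subalgebra of `ℂ⟦X⟧`
(see `Fermat.Agent.S23.spanInt`). -/
def spanIntSet : Set (PowerSeries ℂ) := {P | IsIntSeries P}

/-- The `ℂ`-subalgebra of `ℂ⟦X⟧` generated by the integral power series
(equal to their `ℂ`-span). -/
noncomputable def spanInt : Subalgebra ℂ (PowerSeries ℂ) := Algebra.adjoin ℂ spanIntSet

end Fermat.Agent.S23
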