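import Fermat.Agent.S23.Defs

/-!
# S23 / WP-C: basic properties of the conjugates `cj f i`
-/

set_option autoImplicit false

open UpperHalfPlane ModularForm CongruenceSubgroup
open scoped MatrixGroups ModularForm Manifold

namespace Fermat.Agent.S23

variable {N : ℕ} [NeZero N]

theorem psi_pos (N : ℕ) [NeZero N] : 0 < psi N := by
  unfold psi
  have : Nonempty (Quo N) := ⟨QuotientGroup.mk 1⟩
  exact Nat.card_pos

/-- The conjugate attached to the trivial coset is the form itself. -/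
theorem cj_i0 {k : ℤ} {F : Type*} [FunLike F ℍ ℂ] [SlashInvariantFormClass F (Gam N) k] (f : F) :
    cj f (i0 N) = (f : ℍ → ℂ) := by
  unfold cj i0
  rw [Equiv.apply_symm_apply]
  change SlashInvariantForm.quotientFunc f ⟦(1 : ↥𝒮ℒ)⟧ = _
  rw [SlashInvariantForm.quotientFunc_mk]
  simp

/-- `cj f i` only depends on the underlying function. -/
theorem cj_congr {k : ℤ} {F F' : Type*} [FunLike F ℍ ℂ] [SlashInvariantFormClass F (Gam N) k]
    [FunLike F' ℍ ℂ] [SlashInvariantFormClass F' (Gam N) k] (f : F) (f' : F')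
    (h : (f : ℍ → ℂ) = (f' : ℍ → ℂ)) (i : Fin (psi N)) : cj f i = cj f' i := by
  unfold cj
  induction (quoEquiv N i) using Quotient.inductionOn with
  | h r => simp [h]

theorem cj_mdiff {k : ℤ} {F : Type*} [FunLike F ℍ ℂ] [ModularFormClass F (Gam N) k] (f : F)
    (i : Fin (psi N)) : MDiff (cj f i) := by
  unfold cj
  induction (quoEquiv N i) using Quotient.inductionOn with
  | h r => exact (ModularFormClass.holo f).slash k _

theorem cj_isBoundedAtImInfty {k : ℤ} {F : Type*} [FunLike F ℍ ℂ] [ModularFormClass F (Gam N) k]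
    (f : F) (i : Fin (psi N)) : IsBoundedAtImInfty (cj f i) := by
  unfold cj
  induction (quoEquiv N i) using Quotient.inductionOn with
  | h r =>
    obtain ⟨r, γ, rfl⟩ := r
    rw [SlashInvariantForm.quotientFunc_mk]
    have h1 : ((Matrix.SpecialLinearGroup.mapGL ℝ) γ)⁻¹ = Matrix.SpecialLinearGroup.mapGL ℝ γ⁻¹ :=
      (map_inv _ _).symm
    simp only [h1]
    exact ModularFormClass.bdd_at_infty_slash f γ⁻¹

theorem cj_isZeroAtImInfty {k : ℤ} {F : Type*} [FunLike F ℍ ℂ] [CuspFormClass F (Gam N) k]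
    (f : F) (i : Fin (psi N)) : IsZeroAtImInfty (cj f i) := by
  unfold cj
  induction (quoEquiv N i) using Quotient.inductionOn with
  | h r =>
    obtain ⟨r, γ, rfl⟩ := r
    rw [SlashInvariantForm.quotientFunc_mk]
    have h1 : ((Matrix.SpecialLinearGroup.mapGL ℝ) γ)⁻¹ = Matrix.SpecialLinearGroup.mapGL ℝ γ⁻¹ :=
      (map_inv _ _).symm
    simp only [h1]
    exact CuspFormClass.zero_at_infty_slash f γ⁻¹

/-- Slashing by an element of `SL(2,ℤ)` permutes the conjugates (by a permutation that does not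
depend on the form or the weight). -/
theorem cj_slash (N : ℕ) [NeZero N] (γ : SL(2, ℤ)) :
    ∃ π : Equiv.Perm (Fin (psi N)), ∀ (k : ℤ) (f : ModularForm (Gam N) k) (i : Fin (psi N)),
      (cj f i) ∣[k] γ = cj f (π i) := by
  have hh : (Matrix.SpecialLinearGroup.mapGL ℝ γ) ∈ 𝒮ℒ := ⟨γ, rfl⟩
  refine ⟨(quoEquiv N).trans ((MulAction.toPerm (⟨_, hh⟩ : ↥𝒮ℒ)⁻¹).trans (quoEquiv N).symm), ?_⟩
  intro k f i
  unfold cj
  refine (SlashInvariantForm.quotientFunc_smul (ℋ := 𝒮ℒ) f hh (quoEquiv N i)).trans ?_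
  simp

theorem cj_mul {k₁ k₂ : ℤ} (f : ModularForm (Gam N) k₁) (g : ModularForm (Gam N) k₂)
    (i : Fin (psi N)) : cj (f.mul g) i = cj f i * cj g i := by
  unfold cj
  induction (quoEquiv N i) using Quotient.inductionOn with
  | h r =>
    obtain ⟨r, γ, rfl⟩ := r
    simp only [SlashInvariantForm.quotientFunc_mk, ModularForm.coe_mul]
    have h1 : ((Matrix.SpecialLinearGroup.mapGL ℝ) γ)⁻¹ = Matrix.SpecialLinearGroup.mapGL ℝ γ⁻¹ :=
      (map_inv _ _).symm
    simp only [h1]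
    exact ModularForm.mul_slash_SL2 k₁ k₂ γ⁻¹ f g

theorem cj_pow {k : ℤ} (f : ModularForm (Gam N) k) (n : ℕ) (i : Fin (psi N)) :
    cj (f.pow n) i = (cj f i) ^ n := by
  unfold cj
  induction (quoEquiv N i) using Quotient.inductionOn with
  | h r =>
    obtain ⟨r, γ, rfl⟩ := r
    simp only [SlashInvariantForm.quotientFunc_mk, ModularForm.coe_pow]
    have h1 : ((Matrix.SpecialLinearGroup.mapGL ℝ) γ)⁻¹ = Matrix.SpecialLinearGroup.mapGL ℝ γ⁻¹ :=
      (map_inv _ _).symm
    simp only [h1]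
    change ((f : ℍ → ℂ) ^ n) ∣[(n : ℤ) * k] γ⁻¹ = ((f : ℍ → ℂ) ∣[k] γ⁻¹) ^ n
    ext τ
    simp only [ModularForm.SL_slash_apply, Pi.pow_apply, mul_pow]
    congr 1
    rw [← zpow_natCast, ← zpow_mul]
    congr 1
    ring

/-- The trace to level one is the sum of the conjugates. -/
theorem trace_apply {k : ℤ} (g : ModularForm (Gam N) k) (z : ℍ) :
    ModularForm.trace 𝒮ℒ g z = ∑ i : Fin (psi N), cj g i z := by
  let := Fintype.ofFinite (Quo N)
  rw [ModularForm.coe_trace, Finset.sum_apply]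
  unfold cj
  exact (Fintype.sum_equiv (quoEquiv N) _ _ (fun i => rfl)).symm

/-- If the stabiliser of `t` in `SL(2,ℤ)` is `Γ₀(N)`, the conjugates of `t` are pairwise
distinct functions. -/
theorem cj_injective_of_stabilizer {k : ℤ} (t : ModularForm (Gam N) k)
    (h : ∀ γ : SL(2, ℤ), (t : ℍ → ℂ) ∣[k] γ = (t : ℍ → ℂ) → γ ∈ CongruenceSubgroup.Gamma0 N) :
    Function.Injective (cj t) := by
  intro i j hij
  apply (quoEquiv N).injective
  unfold cj at hij
  revert hij
  induction (quoEquiv N i) using Quotient.inductionOn with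
  | h h₁ =>
  induction (quoEquiv N j) using Quotient.inductionOn with
  | h h₂ =>
  intro hij
  simp only [SlashInvariantForm.quotientFunc_mk] at hij
  obtain ⟨γ₁, hγ₁⟩ := h₁.2
  obtain ⟨γ₂, hγ₂⟩ := h₂.2
  have e : ((γ₁⁻¹ * γ₂ : SL(2, ℤ)) : GL (Fin 2) ℝ) = (h₁ : GL (Fin 2) ℝ)⁻¹ * h₂ := by
    rw [← hγ₁, ← hγ₂]
    change Matrix.SpecialLinearGroup.mapGL ℝ (γ₁⁻¹ * γ₂) = _
    rw [map_mul, map_inv]
  have key : (t : ℍ → ℂ) ∣[k] (γ₁⁻¹ * γ₂) = t := by
    have h2 := congrArg (fun F : ℍ → ℂ => F ∣[k] (h₂ : GL (Fin 2) ℝ)) hij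
    simp only [← SlashAction.slash_mul] at h2
    rw [inv_mul_cancel, SlashAction.slash_one] at h2
    rw [ModularForm.SL_slash, e]
    exact h2
  have hmem := h _ key
  refine QuotientGroup.eq.mpr ?_
  rw [Subgroup.mem_subgroupOf]
  exact ⟨γ₁⁻¹ * γ₂, hmem, e⟩

/-- Pairwise distinct holomorphic functions are pairwise distinct at some point. -/
theorem exists_point_injective {n : ℕ} (g : Fin n → ℍ → ℂ) (hg : ∀ i, MDiff (g i))
    (hinj : Function.Injective g) : ∃ z : ℍ, Function.Injective (fun i => g i z) := by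
  classical
  let s : Finset (Fin n × Fin n) := Finset.univ.filter (fun p => p.1 ≠ p.2)
  have hP : ∏ p ∈ s, (g p.1 - g p.2) ≠ 0 := by
    intro h0
    rw [UpperHalfPlane.prod_eq_zero_iff (fun p _ => (hg p.1).sub (hg p.2))] at h0
    obtain ⟨p, hp, hp0⟩ := h0
    exact (Finset.mem_filter.mp hp).2 (hinj (sub_eq_zero.mp hp0))
  obtain ⟨z, hz⟩ := Function.ne_iff.mp hP
  refine ⟨z, fun i j hij => ?_⟩
  by_contra hne
  apply hz
  rw [Finset.prod_apply]
  refine Finset.prod_eq_zero (i := (i, j)) (by simp [s, hne]) ?_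
  have hij' : g i z = g j z := hij
  simp [hij']

end Fermat.Agent.S23
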