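import Fermat.Agent.S23.Defs

/-!
# S23 / WP-L: level-one modular forms are spanned by forms with rational `q`-expansion
(with bounded denominators)
-/

set_option autoImplicit false

open UpperHalfPlane ModularForm CongruenceSubgroup
open scoped MatrixGroups ModularForm Manifold

namespace Fermat.Agent.S23

namespace LevelOneAux

/-! ### Integral power series -/

/-- A power series over `ℂ` is integral iff it is the image of a power series over `ℤ`. -/
theorem isIntSeries_iff (P : PowerSeries ℂ) :
    IsIntSeries P ↔ ∃ Q : PowerSeries ℤ, P = Q.map (Int.castRingHom ℂ) := by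
  constructor
  · intro h
    choose m hm using h
    refine ⟨PowerSeries.mk m, ?_⟩
    ext n
    simp [hm n]
  · rintro ⟨Q, rfl⟩ n
    exact ⟨PowerSeries.coeff n Q, by simp⟩

theorem isInt_add {P Q : PowerSeries ℂ} (hP : IsIntSeries P) (hQ : IsIntSeries Q) :
    IsIntSeries (P + Q) := by
  rw [isIntSeries_iff] at *
  obtain ⟨P', rfl⟩ := hP
  obtain ⟨Q', rfl⟩ := hQ
  exact ⟨P' + Q', (map_add _ _ _).symm⟩

theorem isInt_sub {P Q : PowerSeries ℂ} (hP : IsIntSeries P) (hQ : IsIntSeries Q) :
    IsIntSeries (P - Q) := by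
  rw [isIntSeries_iff] at *
  obtain ⟨P', rfl⟩ := hP
  obtain ⟨Q', rfl⟩ := hQ
  exact ⟨P' - Q', (map_sub _ _ _).symm⟩

theorem isInt_mul {P Q : PowerSeries ℂ} (hP : IsIntSeries P) (hQ : IsIntSeries Q) :
    IsIntSeries (P * Q) := by
  rw [isIntSeries_iff] at *
  obtain ⟨P', rfl⟩ := hP
  obtain ⟨Q', rfl⟩ := hQ
  exact ⟨P' * Q', (map_mul _ _ _).symm⟩

theorem isInt_one : IsIntSeries (1 : PowerSeries ℂ) := by
  rw [isIntSeries_iff]
  exact ⟨1, (map_one _).symm⟩

theorem isInt_intSmul (c : ℤ) {P : PowerSeries ℂ} (hP : IsIntSeries P) :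
    IsIntSeries ((c : ℂ) • P) := by
  intro n
  obtain ⟨m, hm⟩ := hP n
  exact ⟨c * m, by simp [hm]⟩

/-! ### Series that are integral up to a nonzero integer factor -/

/-- A power series which becomes integral after multiplication by a nonzero integer. -/
def Good (P : PowerSeries ℂ) : Prop := ∃ c : ℤ, c ≠ 0 ∧ IsIntSeries ((c : ℂ) • P)

theorem good_of_isInt {P : PowerSeries ℂ} (hP : IsIntSeries P) : Good P :=
  ⟨1, one_ne_zero, by simpa using hP⟩

theorem good_mul {P Q : PowerSeries ℂ} (hP : Good P) (hQ : Good Q) : Good (P * Q) := by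
  obtain ⟨c, hc, hcP⟩ := hP
  obtain ⟨d, hd, hdQ⟩ := hQ
  refine ⟨c * d, mul_ne_zero hc hd, ?_⟩
  have : ((c * d : ℤ) : ℂ) • (P * Q) = ((c : ℂ) • P) * ((d : ℂ) • Q) := by
    rw [smul_mul_smul_comm]; push_cast; rfl
  rw [this]
  exact isInt_mul hcP hdQ

theorem good_sub {P Q : PowerSeries ℂ} (hP : Good P) (hQ : Good Q) : Good (P - Q) := by
  obtain ⟨c, hc, hcP⟩ := hP
  obtain ⟨d, hd, hdQ⟩ := hQ
  refine ⟨c * d, mul_ne_zero hc hd, ?_⟩
  have : ((c * d : ℤ) : ℂ) • (P - Q) = (d : ℂ) • ((c : ℂ) • P) - (c : ℂ) • ((d : ℂ) • Q) := by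
    rw [smul_smul, smul_smul, smul_sub]; push_cast; rw [mul_comm (d : ℂ) (c : ℂ)]
  rw [this]
  exact isInt_sub (isInt_intSmul d hcP) (isInt_intSmul c hdQ)

theorem good_pow {P : PowerSeries ℂ} (hP : Good P) (n : ℕ) : Good (P ^ n) := by
  induction n with
  | zero => simpa using good_of_isInt isInt_one
  | succ n ih => rw [pow_succ]; exact good_mul ih hP

theorem good_of_intSmul (c : ℤ) (hc : c ≠ 0) {P : PowerSeries ℂ} (hP : Good ((c : ℂ) • P)) :
    Good P := by
  obtain ⟨d, hd, hdP⟩ := hP
  refine ⟨d * c, mul_ne_zero hd hc, ?_⟩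
  have : ((d * c : ℤ) : ℂ) • P = (d : ℂ) • ((c : ℂ) • P) := by
    rw [smul_smul]; push_cast; rfl
  rw [this]
  exact hdP

/-! ### Eisenstein series and the discriminant -/

/-- The normalised Eisenstein series have rational `q`-expansions with bounded denominators. -/
theorem good_E {n : ℕ} (hk : 3 ≤ n) (hk2 : Even n) : Good (qExpansion 1 (E hk)) := by
  set r : ℚ := -(2 * n / bernoulli n) with hr
  have hrC : (r : ℂ) = -(2 * n / bernoulli n : ℂ) := by
    rw [hr]; push_cast; rfl
  refine ⟨(r.den : ℤ), by exact_mod_cast r.den_ne_zero, fun m => ?_⟩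
  rw [PowerSeries.coeff_smul, EisensteinSeries.E_qExpansion_coeff hk hk2 m, ← hrC]
  by_cases hm : m = 0
  · refine ⟨(r.den : ℤ), ?_⟩
    simp [hm]
  · refine ⟨r.num * (ArithmeticFunction.sigma (n - 1) m : ℤ), ?_⟩
    have h1 : ((r.den : ℤ) : ℂ) * (r : ℂ) = (r.num : ℂ) := by
      have := Rat.den_mul_eq_num r
      exact_mod_cast congrArg (fun x : ℚ => (x : ℂ)) this
    rw [if_neg hm, smul_eq_mul, ← mul_assoc, h1]
    push_cast
    rfl

/-- `1728 Δ = E₄³ - E₆²` on the level of `q`-expansions. -/
theorem qExpansion_discriminant :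
    (1728 : ℂ) • qExpansion 1 ModularForm.discriminant =
      qExpansion 1 E₄ ^ 3 - qExpansion 1 E₆ ^ 2 := by
  have h1 : ((1728 : ℂ) • CuspForm.discriminant : ℍ → ℂ) =
      ⇑(ModularForm.mcast (by decide) (E₄.pow 3) - ModularForm.mcast (by decide) (E₆.pow 2) :
        ModularForm 𝒮ℒ 12) := by
    ext z
    simp only [Pi.smul_apply, CuspForm.coe_discriminant, smul_eq_mul, coe_mcast, coe_pow,
      sub_apply, Pi.pow_apply]
    rw [ModularForm.discriminant_eq_E₄_cube_sub_E₆_sq z]
    field_simp
  have h2 := ModularForm.qExpansion_smul one_pos one_mem_strictPeriods_SL (1728 : ℂ)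
    CuspForm.discriminant
  rw [CuspForm.coe_discriminant] at h2
  rw [← h2, ← CuspForm.coe_discriminant, h1]
  simp only [FunLike.coe_sub, coe_mcast,
    ModularForm.qExpansion_sub one_pos one_mem_strictPeriods_SL,
    ModularForm.qExpansion_pow one_pos one_mem_strictPeriods_SL]

/-- The discriminant has a rational `q`-expansion with bounded denominators. -/
theorem good_discriminant : Good (qExpansion 1 ModularForm.discriminant) := by
  refine good_of_intSmul 1728 (by norm_num) ?_
  have : ((1728 : ℤ) : ℂ) = (1728 : ℂ) := by norm_num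
  rw [this, qExpansion_discriminant]
  exact good_sub (good_pow (good_E _ ⟨2, rfl⟩) 3) (good_pow (good_E _ ⟨3, rfl⟩) 2)

/-- Multiplication by the discriminant, as a linear map of level-one modular forms. -/
noncomputable def mulDisc (K : ℤ) : ModularForm 𝒮ℒ (K - 12) →ₗ[ℂ] ModularForm 𝒮ℒ K :=
  CuspForm.toModularFormₗ ∘ₗ (CuspForm.discriminantEquiv (k := K)).symm.toLinearMap

theorem mulDisc_coe (K : ℤ) (f : ModularForm 𝒮ℒ (K - 12)) :
    (mulDisc K f : ℍ → ℂ) = ⇑CuspForm.discriminant * ⇑f := by
  ext z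
  rfl

theorem qExpansion_mulDisc (K : ℤ) (f : ModularForm 𝒮ℒ (K - 12)) :
    qExpansion 1 (mulDisc K f) = qExpansion 1 ModularForm.discriminant * qExpansion 1 f := by
  rw [mulDisc_coe, ModularForm.qExpansion_mul_coe one_pos one_mem_strictPeriods_SL,
    CuspForm.coe_discriminant]

end LevelOneAux

open LevelOneAux in
/-- Every level-one modular form is a `ℂ`-linear combination of level-one forms whose
`q`-expansion becomes integral after multiplication by a nonzero integer. -/
theorem levelOne_mem_span (K : ℤ) (g : ModularForm 𝒮ℒ K) :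
    g ∈ Submodule.span ℂ {g' : ModularForm 𝒮ℒ K |
      ∃ c : ℤ, c ≠ 0 ∧ IsIntSeries ((c : ℂ) • qExpansion 1 g')} := by
  induction' hn : K.toNat using Nat.strong_induction_on with n ih generalizing K
  rcases lt_trichotomy K 0 with hK | rfl | hK
  · -- negative weight
    have h0 : g = 0 := by
      ext z
      simp [ModularFormClass.levelOne_neg_weight_eq_zero hK g]
    rw [h0]
    exact zero_mem _
  · -- weight zero
    obtain ⟨c, hc⟩ := ModularFormClass.levelOne_weight_zero_const g
    have h0 : g = c • (1 : ModularForm 𝒮ℒ 0) := by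
      ext z
      simp [hc]
    rw [h0]
    refine Submodule.smul_mem _ _ (Submodule.subset_span ⟨1, one_ne_zero, ?_⟩)
    rw [ModularForm.qExpansion_one]
    simpa using isInt_one
  · rcases Int.even_or_odd K with hev | hodd
    · by_cases h2 : K = 2
      · subst h2
        rw [rank_zero_iff_forall_zero.mp ModularForm.levelOne_weight_two_rank_zero g]
        exact zero_mem _
      · -- even weight `≥ 4`
        lift K to ℕ using hK.le
        have hk : 3 ≤ K := by
          rcases hev with ⟨r, hr⟩
          omega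
        have hk2 : Even K := by exact_mod_cast hev
        set a₀ : ℂ := (qExpansion 1 g).coeff 0 with ha₀
        set h : ModularForm 𝒮ℒ (K : ℤ) := g - a₀ • E hk with hh
        have hcusp : (qExpansion 1 h).coeff 0 = 0 := by
          rw [hh, FunLike.coe_sub, ModularForm.qExpansion_sub one_pos one_mem_strictPeriods_SL,
            FunLike.coe_smul, ModularForm.qExpansion_smul one_pos one_mem_strictPeriods_SL,
            map_sub, PowerSeries.coeff_smul, EisensteinSeries.E_qExpansion_coeff_zero hk hk2,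
            smul_eq_mul, mul_one, sub_self]
        set g₁ : ModularForm 𝒮ℒ ((K : ℤ) - 12) :=
          CuspForm.discriminantEquiv (toCuspForm h hcusp) with hg₁
        have hg₁mem := ih ((K : ℤ) - 12).toNat (by omega) ((K : ℤ) - 12) g₁ rfl
        have hh_eq : h = mulDisc (K : ℤ) g₁ := by
          ext z
          rw [mulDisc_coe]
          simp [hg₁]
        have hg_eq : g = h + a₀ • E hk := by
          rw [hh]; abel
        rw [hg_eq]
        refine add_mem ?_ (Submodule.smul_mem _ _ (Submodule.subset_span ?_))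
        · rw [hh_eq]
          have hle : Submodule.span ℂ {g' : ModularForm 𝒮ℒ ((K : ℤ) - 12) |
              ∃ c : ℤ, c ≠ 0 ∧ IsIntSeries ((c : ℂ) • qExpansion 1 g')} ≤
              Submodule.comap (mulDisc (K : ℤ)) (Submodule.span ℂ {g' : ModularForm 𝒮ℒ (K : ℤ) |
                ∃ c : ℤ, c ≠ 0 ∧ IsIntSeries ((c : ℂ) • qExpansion 1 g')}) := by
            refine Submodule.span_le.mpr fun x hx => ?_
            refine Submodule.subset_span ?_
            show Good (qExpansion 1 (mulDisc (K : ℤ) x))
            rw [qExpansion_mulDisc]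
            exact good_mul good_discriminant hx
          exact hle hg₁mem
        · exact good_E hk hk2
    · rw [ModularForm.levelOne_odd_weight_eq_zero hodd g]
      exact zero_mem _

/-- Level-one modular forms can be conjugated by any ring endomorphism of `ℂ`. -/
theorem levelOne_conj (K : ℤ) (g : ModularForm 𝒮ℒ K) (σ : ℂ →+* ℂ) :
    ∃ g' : ModularForm 𝒮ℒ K, qExpansion 1 g' = PowerSeries.map σ (qExpansion 1 g) := by
  have hg := levelOne_mem_span K g
  induction hg using Submodule.span_induction with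
  | mem x hx =>
    obtain ⟨c, hc, hint⟩ := hx
    refine ⟨x, ?_⟩
    ext n
    obtain ⟨m, hm⟩ := hint n
    have hc' : (c : ℂ) ≠ 0 := by exact_mod_cast hc
    have hcoeff : PowerSeries.coeff n (qExpansion 1 x) = (m : ℂ) / (c : ℂ) := by
      rw [eq_div_iff hc', mul_comm]
      simpa using hm
    rw [PowerSeries.coeff_map, hcoeff, map_div₀, map_intCast, map_intCast]
  | zero =>
    refine ⟨0, ?_⟩
    ext n
    simp [qExpansion_zero]
  | add x y hx hy ihx ihy =>
    obtain ⟨x', hx'⟩ := ihx
    obtain ⟨y', hy'⟩ := ihy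
    refine ⟨x' + y', ?_⟩
    rw [FunLike.coe_add, ModularForm.qExpansion_add one_pos one_mem_strictPeriods_SL, hx', hy',
      FunLike.coe_add, ModularForm.qExpansion_add one_pos one_mem_strictPeriods_SL, map_add]
  | smul a x hx ihx =>
    obtain ⟨x', hx'⟩ := ihx
    refine ⟨σ a • x', ?_⟩
    rw [FunLike.coe_smul, ModularForm.qExpansion_smul one_pos one_mem_strictPeriods_SL, hx',
      FunLike.coe_smul, ModularForm.qExpansion_smul one_pos one_mem_strictPeriods_SL]
    ext n
    simp

/-- The `q`-expansion of a level-one modular form lies in the `ℂ`-span of the integral series. -/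
theorem levelOne_mem_spanInt (K : ℤ) (g : ModularForm 𝒮ℒ K) : qExpansion 1 g ∈ spanInt := by
  have hg := levelOne_mem_span K g
  induction hg using Submodule.span_induction with
  | mem x hx =>
    obtain ⟨c, hc, hint⟩ := hx
    have hc' : (c : ℂ) ≠ 0 := by exact_mod_cast hc
    have hx_eq : qExpansion 1 x = (c : ℂ)⁻¹ • ((c : ℂ) • qExpansion 1 x) := by
      rw [smul_smul, inv_mul_cancel₀ hc', one_smul]
    rw [hx_eq]
    exact Subalgebra.smul_mem _ (Algebra.subset_adjoin hint) _
  | zero =>
    have : qExpansion 1 (⇑(0 : ModularForm 𝒮ℒ K)) = 0 := by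
      simp [qExpansion_zero]
    rw [this]
    exact zero_mem _
  | add x y hx hy ihx ihy =>
    rw [FunLike.coe_add, ModularForm.qExpansion_add one_pos one_mem_strictPeriods_SL]
    exact add_mem ihx ihy
  | smul a x hx ihx =>
    rw [FunLike.coe_smul, ModularForm.qExpansion_smul one_pos one_mem_strictPeriods_SL]
    exact Subalgebra.smul_mem _ ihx a

end Fermat.Agent.S23
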