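import Fermat.Agent.S23.Defs
import Fermat.Prelude.Thm_CongruenceSubgroup_one_mem_strictPeriods_Gamma0

/-!
# S23 / WP-T1: the primitive element `t(z) = E₄(N z)` is a modular form of level `Γ₀(N)`
with rational `q`-expansion
-/

set_option autoImplicit false

open UpperHalfPlane ModularForm CongruenceSubgroup
open scoped MatrixGroups ModularForm Manifold

namespace Fermat.Agent.S23

theorem tFun_apply (N : ℕ) [NeZero N] (z : ℍ) :
    tFun N z = ModularForm.E₄ (ModularForm.heckeDiagMatrix N • z) := rfl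

theorem coe_heckeDiagMatrix_smul' (N : ℕ) [NeZero N] (z : ℍ) :
    ((ModularForm.heckeDiagMatrix N • z : ℍ) : ℂ) = (N : ℂ) * (z : ℂ) :=
  ModularForm.coe_heckeDiagMatrix_smul (NeZero.ne N) z

namespace PrimAux

open Matrix.SpecialLinearGroup
open scoped Pointwise

/-- The determinant of an element of `SL(2, ℤ)`, written out. -/
theorem det_eq (g : SL(2, ℤ)) : g 0 0 * g 1 1 - g 0 1 * g 1 0 = 1 := by
  have h := g.det_coe
  rwa [Matrix.det_fin_two] at h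

/-- The basic commutation relation `diag(N,1) * [[a,b],[N e,d]] = [[a,N b],[e,d]] * diag(N,1)`. -/
theorem heckeDiagMatrix_mul {N : ℕ} (hN : N ≠ 0) (g : SL(2, ℤ)) (e : ℤ)
    (he : g 1 0 = N * e) :
    ∃ g' : SL(2, ℤ),
      heckeDiagMatrix N * mapGL ℝ g = mapGL ℝ g' * heckeDiagMatrix N := by
  have hdet := det_eq g
  refine ⟨⟨!![g 0 0, N * g 0 1; e, g 1 1], ?_⟩, ?_⟩
  · rw [Matrix.det_fin_two_of]
    linear_combination hdet + (g 0 1) * he
  · ext i j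
    fin_cases i <;> fin_cases j <;>
      simp [hN, Matrix.mul_apply, Fin.sum_univ_two]
    all_goals first
      | (have := congrArg (Int.cast : ℤ → ℝ) he; push_cast at this ⊢; linear_combination this)
      | (have := congrArg (Int.cast : ℤ → ℝ) he; push_cast at this ⊢; linear_combination -this)
      | ring1

/-- For `γ ∈ Γ₀(N)` there is `γ' ∈ SL(2, ℤ)` with `diag(N,1) * γ = γ' * diag(N,1)`. -/
theorem heckeDiagMatrix_mul_of_mem (N : ℕ) [NeZero N] {γ : GL (Fin 2) ℝ} (hγ : γ ∈ Gam N) :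
    ∃ g' : SL(2, ℤ), heckeDiagMatrix N * γ = mapGL ℝ g' * heckeDiagMatrix N := by
  obtain ⟨g, hg, rfl⟩ := hγ
  obtain ⟨e, he⟩ : (N : ℤ) ∣ g 1 0 :=
    (ZMod.intCast_zmod_eq_zero_iff_dvd _ _).mp (CongruenceSubgroup.Gamma0_mem.mp hg)
  exact heckeDiagMatrix_mul (NeZero.ne N) g e he

/-- `E₄ ∣[4] diag(N,1)` is invariant under `Γ₀(N)`. -/
theorem slash_heckeDiag_slash (N : ℕ) [NeZero N] (γ : GL (Fin 2) ℝ) (hγ : γ ∈ Gam N) :
    (⇑E₄ ∣[(4 : ℤ)] heckeDiagMatrix N) ∣[(4 : ℤ)] γ = ⇑E₄ ∣[(4 : ℤ)] heckeDiagMatrix N := by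
  obtain ⟨g', hmul⟩ := heckeDiagMatrix_mul_of_mem N hγ
  rw [← SlashAction.slash_mul, hmul, SlashAction.slash_mul,
    SlashInvariantFormClass.slash_action_eq E₄ _ (MonoidHom.mem_range.mpr ⟨g', rfl⟩)]

/-- `Γ₀(N)` is contained in the conjugate of `SL(2, ℤ)` by `diag(N,1)`. -/
theorem Gam_le_conj (N : ℕ) [NeZero N] :
    Gam N ≤ (ConjAct.toConjAct (heckeDiagMatrix N)⁻¹ • 𝒮ℒ : Subgroup (GL (Fin 2) ℝ)) := by
  intro γ hγ
  obtain ⟨g', hmul⟩ := heckeDiagMatrix_mul_of_mem N hγ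
  rw [map_inv, Subgroup.mem_inv_pointwise_smul_iff, ConjAct.toConjAct_smul, hmul,
    mul_inv_cancel_right]
  exact MonoidHom.mem_range.mpr ⟨g', rfl⟩

/-- The modular form `E₄ ∣[4] diag(N,1)` of level `Γ₀(N)`. -/
noncomputable def tForm0 (N : ℕ) [NeZero N] : ModularForm (Gam N) 4 where
  toFun := ⇑E₄ ∣[(4 : ℤ)] heckeDiagMatrix N
  slash_action_eq' γ hγ := slash_heckeDiag_slash N γ hγ
  holo' := (ModularFormClass.holo E₄).slash 4 _
  bdd_at_cusps' hc :=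
    (ModularForm.translate E₄ (heckeDiagMatrix N)).bdd_at_cusps' (hc.mono (Gam_le_conj N))

theorem tFun_eq (N : ℕ) [NeZero N] :
    tFun N = ((N : ℂ) ^ (3 : ℤ))⁻¹ • (⇑E₄ ∣[(4 : ℤ)] heckeDiagMatrix N) := by
  funext z
  have hN : (N : ℂ) ≠ 0 := Nat.cast_ne_zero.mpr (NeZero.ne N)
  rw [Pi.smul_apply, slash_heckeDiagMatrix_apply 4 (NeZero.ne N), smul_eq_mul, ← mul_assoc,
    show (4 : ℤ) - 1 = 3 by norm_num, inv_mul_cancel₀ (zpow_ne_zero _ hN), one_mul]
  rfl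

end PrimAux

open PrimAux in
/-- `t(z) = E₄(N z)` is a modular form of weight `4` and level `Γ₀(N)`. -/
theorem exists_tForm (N : ℕ) [NeZero N] : ∃ t : ModularForm (Gam N) 4, (t : ℍ → ℂ) = tFun N := by
  refine ⟨((N : ℂ) ^ (3 : ℤ))⁻¹ • tForm0 N, ?_⟩
  rw [tFun_eq, FunLike.coe_smul]
  rfl

namespace PrimAux

/-- `q(N τ) = q(τ) ^ N`. -/
theorem qParam_heckeDiagMatrix_smul (N : ℕ) [NeZero N] (τ : ℍ) :
    Function.Periodic.qParam 1 ((heckeDiagMatrix N • τ : ℍ) : ℂ) =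
      Function.Periodic.qParam 1 (τ : ℂ) ^ N := by
  rw [coe_heckeDiagMatrix_smul', Function.Periodic.qParam, Function.Periodic.qParam,
    ← Complex.exp_nat_mul]
  congr 1
  ring

/-- The `q`-expansion of `t(z) = E₄(N z)` converges to `t`, with the expected coefficients. -/
theorem hasSum_tFun (N : ℕ) [NeZero N] (τ : ℍ) :
    HasSum (fun n : ℕ ↦ (if N ∣ n then (qExpansion 1 E₄).coeff (n / N) else 0) •
      Function.Periodic.qParam 1 (τ : ℂ) ^ n) (tFun N τ) := by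
  have h := ModularForm.hasSum_qExpansion (f := E₄) one_pos one_mem_strictPeriods_SL
    (heckeDiagMatrix N • τ)
  rw [qParam_heckeDiagMatrix_smul] at h
  have hN : 0 < N := Nat.pos_of_ne_zero (NeZero.ne N)
  have hinj : Function.Injective (fun m : ℕ ↦ N * m) :=
    fun a b hab ↦ Nat.eq_of_mul_eq_mul_left hN hab
  rw [tFun_apply, ← hinj.hasSum_iff]
  · convert h using 2 with m
    simp [Nat.mul_div_cancel_left _ hN, pow_mul]
  · intro n hn
    have : ¬ N ∣ n := fun ⟨m, hm⟩ ↦ hn ⟨m, hm.symm⟩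
    simp [this]

/-- The coefficients of the `q`-expansion of `t(z) = E₄(N z)`. -/
theorem coeff_qExpansion_tFun (N : ℕ) [NeZero N] (n : ℕ) :
    (qExpansion 1 (tFun N)).coeff n =
      if N ∣ n then (qExpansion 1 E₄).coeff (n / N) else 0 := by
  obtain ⟨t, ht⟩ := exists_tForm N
  rw [← ht]
  exact (ModularFormClass.qExpansion_coeff_unique one_pos
    (CongruenceSubgroup.one_mem_strictPeriods_Gamma0 N) (f := t)
    (fun τ ↦ by rw [ht]; exact hasSum_tFun N τ) n).symm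

open scoped ArithmeticFunction.sigma in
/-- The `q`-expansion of `E₄` has bounded denominators. -/
theorem E4_coeff_int :
    ∃ c : ℤ, c ≠ 0 ∧ ∀ m : ℕ, ∃ z : ℤ, (c : ℂ) * (qExpansion 1 E₄).coeff m = (z : ℂ) := by
  set r : ℚ := -(2 * 4 / bernoulli 4) with hr
  have hr' : ((r.den : ℤ) : ℂ) * (r : ℂ) = (r.num : ℂ) := by
    exact_mod_cast congrArg (Rat.cast : ℚ → ℂ) (Rat.den_mul_eq_num r)
  refine ⟨(r.den : ℤ), by exact_mod_cast r.den_ne_zero, fun m ↦ ?_⟩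
  have hcoeff := EisensteinSeries.E_qExpansion_coeff (k := 4) (by norm_num) ⟨2, rfl⟩ m
  rw [hcoeff]
  split_ifs with hm
  · exact ⟨r.den, by push_cast; ring⟩
  · refine ⟨r.num * σ 3 m, ?_⟩
    have h2 : -(2 * ((4 : ℕ) : ℂ) / ((bernoulli 4 : ℚ) : ℂ)) = (r : ℂ) := by
      rw [hr]; push_cast; ring
    rw [h2, ← mul_assoc, hr']
    push_cast
    ring

end PrimAux

/-- The `q`-expansion of `t` is integral up to a nonzero integer factor
(it is `(qExpansion 1 E₄)(X^N)`). -/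
theorem tFun_qExpansion (N : ℕ) [NeZero N] :
    ∃ c : ℤ, c ≠ 0 ∧ IsIntSeries ((c : ℂ) • qExpansion 1 (tFun N)) := by
  obtain ⟨c, hc, hint⟩ := PrimAux.E4_coeff_int
  refine ⟨c, hc, fun n ↦ ?_⟩
  rw [PowerSeries.coeff_smul, PrimAux.coeff_qExpansion_tFun, smul_eq_mul]
  split_ifs with h
  · exact hint (n / N)
  · exact ⟨0, by simp⟩

end Fermat.Agent.S23
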