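import Fermat.Agent.S23.Defs

/-!
# S23 / WP-X: transformation behaviour of `adj(M) b / det(M)`

For matrices `m i j` of level-one modular forms of weight `4 (i + j)`, vectors `b j` of level-one
forms of weight `4 j + k` and `t` of weight `4` and level `Γ₀(N)`, the quotient
`numFun t m b / detFun m` transforms like a form of weight `k` under `Γ₀(N)`.
-/

set_option autoImplicit false

open UpperHalfPlane ModularForm CongruenceSubgroup
open scoped MatrixGroups ModularForm Manifold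

namespace Fermat.Agent.S23

/-- `z ↦ det (m i j z)`. -/
noncomputable def detFun {n : ℕ}
    (m : ∀ i j : Fin n, ModularForm 𝒮ℒ ((((i : ℕ) + (j : ℕ) : ℕ) : ℤ) * 4)) : ℍ → ℂ :=
  fun z => Matrix.det (Matrix.of fun i j => m i j z)

/-- `z ↦ ∑ j, t z ^ j * (adj (m i j z) *ᵥ (b j z)) j`. -/
noncomputable def numFun {N : ℕ} [NeZero N] {k : ℤ} {n : ℕ} (t : ModularForm (Gam N) 4)
    (m : ∀ i j : Fin n, ModularForm 𝒮ℒ ((((i : ℕ) + (j : ℕ) : ℕ) : ℤ) * 4))
    (b : ∀ j : Fin n, ModularForm 𝒮ℒ ((((j : ℕ) : ℤ) * 4) + k)) : ℍ → ℂ :=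
  fun z => ∑ j : Fin n, t z ^ (j : ℕ) *
    ((Matrix.adjugate (Matrix.of fun i j => m i j z)).mulVec (fun j => b j z)) j

namespace TransAux

/-- If every entry of a matrix-valued function on `ℍ` is holomorphic, then so is its
determinant. -/
theorem mdiff_det {n : ℕ} (A : ℍ → Matrix (Fin n) (Fin n) ℂ)
    (hA : ∀ i j, MDiff (fun z => A z i j)) : MDiff (fun z => Matrix.det (A z)) := by
  have h : (fun z => Matrix.det (A z)) =
      ∑ σ : Equiv.Perm (Fin n), (fun _ : ℍ => ((Equiv.Perm.sign σ : ℤ) : ℂ)) *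
        ∏ i : Fin n, (fun z => A z (σ i) i) := by
    funext z
    rw [Matrix.det_apply']
    simp [Finset.sum_apply, Finset.prod_apply]
  rw [h]
  exact MDifferentiable.sum fun σ _ =>
    MDifferentiable.mul mdifferentiable_const (MDifferentiable.prod fun i _ => hA (σ i) i)

/-- If every entry of a matrix-valued function on `ℍ` is holomorphic, then so is every entry
of its adjugate. -/
theorem mdiff_adjugate {n : ℕ} (A : ℍ → Matrix (Fin n) (Fin n) ℂ)
    (hA : ∀ i j, MDiff (fun z => A z i j)) (i j : Fin n) :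
    MDiff (fun z => Matrix.adjugate (A z) i j) := by
  have h : (fun z => Matrix.adjugate (A z) i j) =
      fun z => Matrix.det ((A z).updateRow j (Pi.single i 1)) := by
    funext z
    rw [Matrix.adjugate_apply]
  rw [h]
  refine mdiff_det _ fun i' j' => ?_
  by_cases hi : i' = j
  · have h1 : (fun z => (A z).updateRow j (Pi.single i 1) i' j') =
        fun _ => (Pi.single i 1 : Fin n → ℂ) j' := by
      funext z
      rw [Matrix.updateRow_apply, if_pos hi]
    rw [h1]
    exact mdifferentiable_const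
  · have h1 : (fun z => (A z).updateRow j (Pi.single i 1) i' j') = fun z => A z i' j' := by
      funext z
      rw [Matrix.updateRow_apply, if_neg hi]
    rw [h1]
    exact hA i' j'

/-- Transformation law of a level-one form under `SL(2,ℤ)`. -/
theorem lvl1_eqn {k : ℤ} (f : ModularForm 𝒮ℒ k) (γ : SL(2, ℤ)) (z : ℍ) :
    f (γ • z) = denom γ z ^ k * f z :=
  SlashInvariantForm.slash_action_eqn'' (Γ := 𝒮ℒ) f
    (γ := Matrix.SpecialLinearGroup.mapGL ℝ γ) ⟨γ, rfl⟩ z

/-- Transformation law of a form of level `Γ₀(N)` under `Γ₀(N)`. -/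
theorem lvlN_eqn {N : ℕ} {k : ℤ} (t : ModularForm (Gam N) k) (γ : SL(2, ℤ))
    (hγ : γ ∈ CongruenceSubgroup.Gamma0 N) (z : ℍ) :
    t (γ • z) = denom γ z ^ k * t z :=
  SlashInvariantForm.slash_action_eqn'' (Γ := Gam N) t
    (γ := Matrix.SpecialLinearGroup.mapGL ℝ γ) (Subgroup.mem_map_of_mem _ hγ) z

/-- The linear algebra behind `numFun_trans`: conjugating `M` by a diagonal matrix `Λ` and
twisting `β` by `Λ` multiplies `∑ j, u j * (adj M *ᵥ β) j` by `(det Λ) ^ 2`. -/
theorem alg_key {n : ℕ} (d : Fin n → ℂ) (M : Matrix (Fin n) (Fin n) ℂ) (β u : Fin n → ℂ)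
    (ck : ℂ) :
    ∑ j, (d j * u j) *
        ((Matrix.adjugate (Matrix.diagonal d * M * Matrix.diagonal d)).mulVec
          (ck • (Matrix.diagonal d).mulVec β)) j =
      ck * (Matrix.det (Matrix.diagonal d)) ^ 2 * ∑ j, u j * ((Matrix.adjugate M).mulVec β) j := by
  set Λ : Matrix (Fin n) (Fin n) ℂ := Matrix.diagonal d with hΛ
  have key : Λ.mulVec ((Matrix.adjugate (Λ * M * Λ)).mulVec (ck • Λ.mulVec β)) =
      (ck * Λ.det ^ 2) • (Matrix.adjugate M).mulVec β := by
    rw [Matrix.mulVec_smul, Matrix.mulVec_smul, Matrix.mulVec_mulVec, Matrix.mulVec_mulVec,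
      Matrix.adjugate_mul_distrib, Matrix.adjugate_mul_distrib]
    have h1 : Λ * (Matrix.adjugate Λ * (Matrix.adjugate M * Matrix.adjugate Λ)) * Λ =
        (Λ * Matrix.adjugate Λ) * Matrix.adjugate M * (Matrix.adjugate Λ * Λ) := by
      simp only [Matrix.mul_assoc]
    rw [h1, Matrix.mul_adjugate, Matrix.adjugate_mul]
    rw [Matrix.smul_mul, Matrix.one_mul, Matrix.mul_smul, Matrix.mul_one, Matrix.smul_mulVec,
      Matrix.smul_mulVec, smul_smul, smul_smul]
    congr 1
    ring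
  have h2 : ∀ w : Fin n → ℂ, ∑ j, (d j * u j) * w j = ∑ j, u j * (Λ.mulVec w) j := by
    intro w
    refine Finset.sum_congr rfl fun j _ => ?_
    rw [hΛ, Matrix.mulVec_diagonal]
    ring
  rw [h2, key, Finset.mul_sum]
  refine Finset.sum_congr rfl fun j _ => ?_
  rw [Pi.smul_apply, smul_eq_mul]
  ring

end TransAux

theorem detFun_mdiff {n : ℕ}
    (m : ∀ i j : Fin n, ModularForm 𝒮ℒ ((((i : ℕ) + (j : ℕ) : ℕ) : ℤ) * 4)) :
    MDiff (detFun m) := by
  unfold detFun
  exact TransAux.mdiff_det _ fun i j => ModularFormClass.holo (m i j)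

theorem numFun_mdiff {N : ℕ} [NeZero N] {k : ℤ} {n : ℕ} (t : ModularForm (Gam N) 4)
    (m : ∀ i j : Fin n, ModularForm 𝒮ℒ ((((i : ℕ) + (j : ℕ) : ℕ) : ℤ) * 4))
    (b : ∀ j : Fin n, ModularForm 𝒮ℒ ((((j : ℕ) : ℤ) * 4) + k)) :
    MDiff (numFun t m b) := by
  have h : numFun t m b = ∑ j : Fin n, (⇑t) ^ (j : ℕ) *
      ∑ l : Fin n, (fun z => Matrix.adjugate (Matrix.of fun i j => m i j z) j l) * ⇑(b l) := by
    funext z
    simp [numFun, Matrix.mulVec, dotProduct, Finset.sum_apply]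
  rw [h]
  exact MDifferentiable.sum fun j _ =>
    MDifferentiable.mul ((ModularFormClass.holo t).pow j)
      (MDifferentiable.sum fun l _ =>
        MDifferentiable.mul
          (TransAux.mdiff_adjugate _ (fun i j => ModularFormClass.holo (m i j)) j l)
          (ModularFormClass.holo (b l)))

/-- The transformation law needed by the division lemma. -/
theorem numFun_trans {N : ℕ} [NeZero N] {k : ℤ} {n : ℕ} (t : ModularForm (Gam N) 4)
    (m : ∀ i j : Fin n, ModularForm 𝒮ℒ ((((i : ℕ) + (j : ℕ) : ℕ) : ℤ) * 4))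
    (b : ∀ j : Fin n, ModularForm 𝒮ℒ ((((j : ℕ) : ℤ) * 4) + k))
    (γ : SL(2, ℤ)) (hγ : γ ∈ CongruenceSubgroup.Gamma0 N) (z : ℍ) :
    numFun t m b (γ • z) * detFun m z = (denom γ z) ^ k * numFun t m b z * detFun m (γ • z) := by
  have hc0 : denom γ z ≠ 0 := denom_ne_zero _ z
  -- the diagonal matrix `Λ = diag (c ^ (4 i))`
  have hM' : (Matrix.of fun i j => m i j (γ • z) : Matrix (Fin n) (Fin n) ℂ) =
      Matrix.diagonal (fun i : Fin n => denom γ z ^ (((i : ℕ) : ℤ) * 4)) *
        (Matrix.of fun i j => m i j z) *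
        Matrix.diagonal (fun i : Fin n => denom γ z ^ (((i : ℕ) : ℤ) * 4)) := by
    ext i j
    have hpow : denom γ z ^ ((((i : ℕ) + (j : ℕ) : ℕ) : ℤ) * 4) =
        denom γ z ^ (((i : ℕ) : ℤ) * 4) * denom γ z ^ (((j : ℕ) : ℤ) * 4) := by
      rw [← zpow_add₀ hc0, Nat.cast_add, add_mul]
    rw [Matrix.mul_diagonal, Matrix.diagonal_mul, Matrix.of_apply, Matrix.of_apply,
      TransAux.lvl1_eqn, hpow]
    ring
  have hβ' : (fun j => b j (γ • z)) =
      denom γ z ^ k •
        (Matrix.diagonal (fun i : Fin n => denom γ z ^ (((i : ℕ) : ℤ) * 4))).mulVec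
          (fun j => b j z) := by
    funext j
    rw [Pi.smul_apply, Matrix.mulVec_diagonal, TransAux.lvl1_eqn, zpow_add₀ hc0, smul_eq_mul]
    ring
  have ht : ∀ j : Fin n, t (γ • z) ^ (j : ℕ) =
      denom γ z ^ (((j : ℕ) : ℤ) * 4) * t z ^ (j : ℕ) := by
    intro j
    rw [TransAux.lvlN_eqn t γ hγ z, mul_pow, ← zpow_natCast (denom γ z ^ (4 : ℤ)), ← zpow_mul,
      mul_comm (4 : ℤ)]
  have hnum : numFun t m b (γ • z) =
      denom γ z ^ k *
        (Matrix.det (Matrix.diagonal (fun i : Fin n => denom γ z ^ (((i : ℕ) : ℤ) * 4)))) ^ 2 *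
        numFun t m b z := by
    unfold numFun
    rw [hM', hβ']
    simp only [ht]
    exact TransAux.alg_key _ _ _ _ _
  have hdet : detFun m (γ • z) =
      Matrix.det (Matrix.diagonal (fun i : Fin n => denom γ z ^ (((i : ℕ) : ℤ) * 4))) *
        detFun m z *
        Matrix.det (Matrix.diagonal (fun i : Fin n => denom γ z ^ (((i : ℕ) : ℤ) * 4))) := by
    unfold detFun
    rw [hM', Matrix.det_mul, Matrix.det_mul]
  rw [hnum, hdet]
  ring

end Fermat.Agent.S23
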