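import Fermat.Agent.S23.Conj

/-!
# S23 / WP-E: elementary symmetric functions of the conjugates are level-one modular forms
-/

set_option autoImplicit false

open UpperHalfPlane ModularForm CongruenceSubgroup
open scoped MatrixGroups ModularForm Manifold

namespace Fermat.Agent.S23

variable {N : ℕ} [NeZero N]

namespace EsymmAux

/-- The `s`-th elementary symmetric function of the conjugates, as a function on `ℍ`. -/
noncomputable def esymmFun {k : ℤ} (f : ModularForm (Gam N) k) (s : ℕ) : ℍ → ℂ :=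
  ∑ S ∈ Finset.powersetCard s (Finset.univ : Finset (Fin (psi N))), ∏ i ∈ S, cj f i

theorem esymmFun_apply {k : ℤ} (f : ModularForm (Gam N) k) (s : ℕ) (z : ℍ) :
    esymmFun f s z =
      ∑ S ∈ Finset.powersetCard s (Finset.univ : Finset (Fin (psi N))), ∏ i ∈ S, cj f i z := by
  simp [esymmFun, Finset.sum_apply, Finset.prod_apply]

/-- Slashing by an element of `SL(2,ℤ)` permutes the conjugates, hence fixes their elementary
symmetric functions. -/
theorem esymmFun_slash {k : ℤ} (f : ModularForm (Gam N) k) (s : ℕ) (γ : SL(2, ℤ)) :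
    esymmFun f s ∣[(s : ℤ) * k] γ = esymmFun f s := by
  obtain ⟨π, hπ⟩ := cj_slash N γ
  unfold esymmFun
  rw [ModularForm.SL_slash, SlashAction.sum_slash]
  have key : ∀ S ∈ Finset.powersetCard s (Finset.univ : Finset (Fin (psi N))),
      (∏ i ∈ S, cj f i) ∣[(s : ℤ) * k] (γ : GL (Fin 2) ℝ)
        = ∏ i ∈ S.map π.toEmbedding, cj f i := by
    intro S hS
    have hcard : S.card = s := (Finset.mem_powersetCard.mp hS).2
    rw [show (s : ℤ) * k = k * (S.card : ℤ) by rw [hcard]; ring, ModularForm.prod_slash]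
    rw [Finset.prod_map]
    have h1 : ∀ i, (cj f i) ∣[k] (γ : GL (Fin 2) ℝ) = cj f (π i) := fun i => hπ k f i
    simp [h1]
  rw [Finset.sum_congr rfl key]
  refine Finset.sum_nbij' (fun S => S.map π.toEmbedding) (fun S => S.map π.symm.toEmbedding)
    ?_ ?_ ?_ ?_ ?_
  · intro S hS
    simp only [Finset.mem_powersetCard, Finset.subset_univ, true_and, Finset.card_map] at hS ⊢
    exact hS
  · intro S hS
    simp only [Finset.mem_powersetCard, Finset.subset_univ, true_and, Finset.card_map] at hS ⊢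
    exact hS
  · intro S _
    ext i
    simp
  · intro S _
    ext i
    simp
  · intro S _
    rfl

theorem esymmFun_mdiff {k : ℤ} (f : ModularForm (Gam N) k) (s : ℕ) : MDiff (esymmFun f s) := by
  unfold esymmFun
  exact .sum fun S _ => .prod fun i _ => cj_mdiff f i

theorem esymmFun_isBoundedAtImInfty {k : ℤ} (f : ModularForm (Gam N) k) (s : ℕ) :
    IsBoundedAtImInfty (esymmFun f s) := by
  unfold esymmFun
  have h : ∀ S : Finset (Fin (psi N)),
      (∏ i ∈ S, cj f i) ∈ Filter.boundedFilterSubmodule ℂ atImInfty :=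
    fun S => Filter.BoundedAtFilter.prod S fun i _ => cj_isBoundedAtImInfty f i
  exact (Filter.boundedFilterSubmodule ℂ atImInfty).sum_mem fun S _ => h S

theorem esymmFun_isZeroAtImInfty {k : ℤ} (f : ModularForm (Gam N) k) (s : ℕ) (hs : 0 < s)
    (hf : ∀ i, IsZeroAtImInfty (cj f i)) :
    IsZeroAtImInfty (esymmFun f s) := by
  unfold esymmFun
  have h : ∀ S ∈ Finset.powersetCard s (Finset.univ : Finset (Fin (psi N))),
      (∏ i ∈ S, cj f i) ∈ Filter.zeroAtFilterSubmodule ℂ atImInfty := by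
    intro S hS
    have hcard : S.card = s := (Finset.mem_powersetCard.mp hS).2
    show Filter.Tendsto (∏ i ∈ S, cj f i) atImInfty (nhds 0)
    have h0 : (0 : ℂ) = ∏ i ∈ S, (0 : ℂ) := by
      rw [Finset.prod_const, zero_pow (by omega)]
    rw [h0]
    have := tendsto_finsetProd S (fun i _ => hf i) (f := fun i z => cj f i z)
      (a := fun _ => (0 : ℂ))
    convert this using 1
    ext z
    simp
  exact (Filter.zeroAtFilterSubmodule ℂ atImInfty).sum_mem h

/-- The `s`-th elementary symmetric function of the conjugates, as a level-one modular form. -/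
noncomputable def esymmForm {k : ℤ} (f : ModularForm (Gam N) k) (s : ℕ) :
    ModularForm 𝒮ℒ ((s : ℤ) * k) where
  toFun := esymmFun f s
  slash_action_eq' := fun _ ⟨γ, hγ⟩ ↦ hγ ▸ esymmFun_slash f s γ
  holo' := esymmFun_mdiff f s
  bdd_at_cusps' {c} hc := by
    rw [Subgroup.IsArithmetic.isCusp_iff_isCusp_SL2Z] at hc
    rw [OnePoint.isBoundedAt_iff_forall_SL2Z hc]
    intro γ _
    rw [esymmFun_slash f s γ]
    exact esymmFun_isBoundedAtImInfty f s

theorem coe_esymmForm {k : ℤ} (f : ModularForm (Gam N) k) (s : ℕ) :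
    (esymmForm f s : ℍ → ℂ) = esymmFun f s := rfl

/-- Vieta's formula, evaluated. -/
theorem prod_sub_eq_sum {R : Type*} [CommRing R] {n : ℕ} (x : Fin n → R) (y : R) :
    ∏ i, (y - x i) = ∑ j ∈ Finset.range (n + 1),
      (-1) ^ j * ((∑ S ∈ Finset.powersetCard j (Finset.univ : Finset (Fin n)), ∏ i ∈ S, x i)
        * y ^ (n - j)) := by
  have h := Multiset.prod_X_sub_X_eq_sum_esymm ((Finset.univ : Finset (Fin n)).val.map x)
  have h2 := congrArg (Polynomial.eval y) h
  simp only [Multiset.map_map, Multiset.card_map, Finset.card_val, Finset.card_univ,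
    Fintype.card_fin, Finset.esymm_map_val, Polynomial.eval_finsetSum, Polynomial.eval_mul,
    Polynomial.eval_pow, Polynomial.eval_neg, Polynomial.eval_one, Polynomial.eval_C,
    Polynomial.eval_X] at h2
  rw [← h2]
  rw [Finset.prod_eq_multiset_prod, Polynomial.eval_multiset_prod, Multiset.map_map]
  simp

end EsymmAux

/-- The `s`-th elementary symmetric function of the conjugates of `f` is a level-one modular form
of weight `s * k`. -/
theorem exists_esymm {k : ℤ} (f : ModularForm (Gam N) k) (s : ℕ) :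
    ∃ e : ModularForm 𝒮ℒ ((s : ℤ) * k), ∀ z : ℍ,
      e z = ∑ S ∈ Finset.powersetCard s (Finset.univ : Finset (Fin (psi N))), ∏ i ∈ S, cj f i z := by
  exact ⟨EsymmAux.esymmForm f s, fun z => EsymmAux.esymmFun_apply f s z⟩

/-- The integrality relation: `f` is a root of a monic polynomial of degree `psi N` whose
coefficients are level-one modular forms `a s` of weight `(s+1) * k`; if all conjugates of `f`
vanish at `i∞` (e.g. `f` is a cusp form) then so do the `a s`. -/
theorem exists_charpoly_coeff {k : ℤ} (f : ModularForm (Gam N) k) :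
    ∃ a : ∀ s : Fin (psi N), ModularForm 𝒮ℒ ((((s : ℕ) + 1 : ℕ) : ℤ) * k),
      (∀ z : ℍ, f z ^ psi N + ∑ s : Fin (psi N), a s z * f z ^ (psi N - 1 - (s : ℕ)) = 0) ∧
      ((∀ i, IsZeroAtImInfty (cj f i)) → ∀ s, IsZeroAtImInfty (a s : ℍ → ℂ)) := by
  refine ⟨fun s => ((-1 : ℂ) ^ ((s : ℕ) + 1)) • EsymmAux.esymmForm f ((s : ℕ) + 1), ?_, ?_⟩
  · intro z
    have h := EsymmAux.prod_sub_eq_sum (fun i => cj f i z) (f z)
    have h0 : ∏ i, (f z - cj f i z) = 0 :=
      Finset.prod_eq_zero (Finset.mem_univ (i0 N)) (by rw [cj_i0]; simp)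
    rw [h0, Finset.sum_range_succ'] at h
    simp only [pow_zero, Finset.powersetCard_zero, Finset.sum_singleton, Finset.prod_empty,
      one_mul, Nat.sub_zero] at h
    rw [add_comm, ← Fin.sum_univ_eq_sum_range
      (fun j => (-1 : ℂ) ^ (j + 1) * ((∑ S ∈ Finset.powersetCard (j + 1)
        (Finset.univ : Finset (Fin (psi N))), ∏ i ∈ S, cj f i z) * f z ^ (psi N - (j + 1))))
      (psi N)] at h
    refine Eq.trans ?_ h.symm
    congr 1
    refine Finset.sum_congr rfl fun s _ => ?_
    show ((-1 : ℂ) ^ ((s : ℕ) + 1)) • (EsymmAux.esymmFun f ((s : ℕ) + 1) z) * _ = _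
    rw [EsymmAux.esymmFun_apply, smul_eq_mul, Nat.sub_sub, mul_assoc, add_comm 1 (s : ℕ)]
  · intro hf s
    show IsZeroAtImInfty (((-1 : ℂ) ^ ((s : ℕ) + 1)) • EsymmAux.esymmFun f ((s : ℕ) + 1))
    exact (EsymmAux.esymmFun_isZeroAtImInfty f ((s : ℕ) + 1) (Nat.succ_pos _) hf).smul _

end Fermat.Agent.S23
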