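import Fermat.Agent.S23.Defs

/-!
# S23 / WP-T2: the stabiliser of `t(z) = E₄(N z)` in `SL(2,ℤ)` is `Γ₀(N)`

Write `γ = [[a, b], [c, d]]`, `α = diag(N, 1)`, `g = gcd(N, c)`, `N = g * d'`, `c = g * c'`.
Then `d' * a` and `c'` are coprime, so there is `δ = [[d' * a, -v], [c', u]] ∈ SL(2,ℤ)` and
`α * γ = δ * [[g, b'], [0, d']]` for a suitable integer `b'`.  As `E₄` has level one this gives
`(t ∣[4] γ)(z) = d'⁻⁴ * E₄((g z + b') / d')`.  Letting `z → i∞` in `t ∣[4] γ = t` and using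
`E₄ → 1` we get `d'⁻⁴ = 1`, hence `d' = 1`, i.e. `N ∣ c`.
-/

set_option autoImplicit false

open UpperHalfPlane ModularForm CongruenceSubgroup
open scoped MatrixGroups ModularForm Manifold

namespace Fermat.Agent.S23

namespace StabAux

/-- `E₄` tends to `1` at `i∞`. -/
theorem tendsto_E₄ :
    Filter.Tendsto (fun z : ℍ => ModularForm.E₄ z) UpperHalfPlane.atImInfty (nhds 1) := by
  have hana : AnalyticAt ℂ (cuspFunction 1 (ModularForm.E₄ : ℍ → ℂ)) 0 :=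
    ModularFormClass.analyticAt_cuspFunction_zero ModularForm.E₄ one_pos
      one_mem_strictPeriods_SL
  have h0 : cuspFunction 1 (ModularForm.E₄ : ℍ → ℂ) 0 = 1 := by
    have h1 := EisensteinSeries.E_qExpansion_coeff_zero (k := 4) (by norm_num) (by decide)
    simpa [qExpansion_coeff] using h1
  have hcomp : (cuspFunction 1 (ModularForm.E₄ : ℍ → ℂ) ∘
      fun τ : ℍ => Function.Periodic.qParam 1 τ) = fun z : ℍ => ModularForm.E₄ z := by
    funext τ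
    exact SlashInvariantFormClass.eq_cuspFunction ModularForm.E₄ τ one_mem_strictPeriods_SL
      one_ne_zero
  have h2 := hana.continuousAt.tendsto.comp (qParam_tendsto_atImInfty one_pos)
  rw [h0, hcomp] at h2
  exact h2

/-- Arithmetic input: a factorisation `N = g * d'`, `c = g * c'` with `d' * a` coprime to `c'`. -/
theorem exists_decomp (N : ℕ) (hN : N ≠ 0) (a b c d : ℤ) (hdet : a * d - b * c = 1) :
    ∃ (g d' : ℕ) (c' u v : ℤ), 0 < g ∧ 0 < d' ∧ g * d' = N ∧ c = g * c' ∧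
      u * (d' * a) + v * c' = 1 := by
  have hNZ : (N : ℤ) ≠ 0 := by exact_mod_cast hN
  have hg0 : Int.gcd (N : ℤ) c ≠ 0 := by
    intro h0
    exact hNZ (Int.gcd_eq_zero_iff.mp h0).1
  have hgZ : (Int.gcd (N : ℤ) c : ℤ) ≠ 0 := by exact_mod_cast hg0
  obtain ⟨d', hd'⟩ : Int.gcd (N : ℤ) c ∣ N :=
    Int.natCast_dvd_natCast.mp (Int.gcd_dvd_left _ _)
  obtain ⟨c', hc'⟩ : (Int.gcd (N : ℤ) c : ℤ) ∣ c := Int.gcd_dvd_right _ _
  have hd'0 : d' ≠ 0 := by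
    rintro rfl
    exact hN (by simpa using hd')
  have hbez := Int.gcd_eq_gcd_ab (N : ℤ) c
  have hd'Z : (N : ℤ) = (Int.gcd (N : ℤ) c : ℤ) * (d' : ℤ) := by exact_mod_cast hd'
  have h1 : IsCoprime (d' : ℤ) c' := by
    refine ⟨Int.gcdA N c, Int.gcdB N c, ?_⟩
    apply mul_left_cancel₀ hgZ
    linear_combination (-1 : ℤ) * hbez - (Int.gcdA N c) * hd'Z - (Int.gcdB N c) * hc'
  have h2 : IsCoprime a c' := by
    refine ⟨d, -(b * (Int.gcd (N : ℤ) c : ℤ)), ?_⟩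
    linear_combination hdet + b * hc'
  obtain ⟨u, v, huv⟩ := IsCoprime.mul_left h1 h2
  exact ⟨Int.gcd (N : ℤ) c, d', c', u, v, Nat.pos_of_ne_zero hg0, Nat.pos_of_ne_zero hd'0,
    hd'.symm, hc', huv⟩

/-- The `SL(2,ℤ)` matrix `δ = [[x, -v], [c', u]]` of the decomposition `α γ = δ β`. -/
def deltaMat (x v c' u : ℤ) (h : u * x + v * c' = 1) : SL(2, ℤ) :=
  ⟨!![x, -v; c', u], by rw [Matrix.det_fin_two_of]; linear_combination h⟩

/-- The real matrix of an element of `SL(2,ℤ)`. -/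
theorem val_mapGL (γ : SL(2, ℤ)) :
    ((Matrix.SpecialLinearGroup.mapGL ℝ γ : GL (Fin 2) ℝ) : Matrix (Fin 2) (Fin 2) ℝ) =
      !![((γ 0 0 : ℤ) : ℝ), ((γ 0 1 : ℤ) : ℝ); ((γ 1 0 : ℤ) : ℝ), ((γ 1 1 : ℤ) : ℝ)] := by
  rw [Matrix.SpecialLinearGroup.mapGL_coe_matrix]
  ext i j
  fin_cases i <;> fin_cases j <;> rfl

/-- The matrix identity `diag(N,1) * γ = δ * [[g, b'], [0, d']]`. -/
theorem matrix_identity (N : ℕ) (hN : N ≠ 0) (γ : SL(2, ℤ)) (g d' : ℕ) (c' u v : ℤ)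
    (hgd : g * d' = N) (hc : γ 1 0 = g * c') (huv : u * (d' * γ 0 0) + v * c' = 1)
    (had : (g : ℝ) * (d' : ℝ) ≠ 0) :
    heckeDiagMatrix N * Matrix.SpecialLinearGroup.mapGL ℝ γ =
      Matrix.SpecialLinearGroup.mapGL ℝ (deltaMat (d' * γ 0 0) v c' u huv) *
        upperTriangularGL (g : ℝ) ((u * N * γ 0 1 + v * γ 1 1 : ℤ) : ℝ) (d' : ℝ) had := by
  have hdet : γ 0 0 * γ 1 1 - γ 0 1 * γ 1 0 = 1 := by
    have := γ.det_coe
    rwa [Matrix.det_fin_two] at this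
  have hgdZ : (g : ℤ) * (d' : ℤ) = (N : ℤ) := by exact_mod_cast hgd
  have e00 : (N : ℤ) * γ 0 0 = (d' : ℤ) * γ 0 0 * g := by
    linear_combination (-(γ 0 0)) * hgdZ
  have e01 : (N : ℤ) * γ 0 1 =
      (d' : ℤ) * γ 0 0 * (u * N * γ 0 1 + v * γ 1 1) + (-v) * d' := by
    linear_combination (-(γ 0 1 * v * c')) * hgdZ - (N : ℤ) * γ 0 1 * huv - d' * v * hdet
      - d' * v * γ 0 1 * hc
  have e10 : γ 1 0 = c' * g := by
    linear_combination hc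
  have e11 : γ 1 1 = c' * (u * N * γ 0 1 + v * γ 1 1) + u * d' := by
    linear_combination (u * γ 0 1 * c') * hgdZ - γ 1 1 * huv + u * d' * hdet
      + u * d' * γ 0 1 * hc
  have r00 : (N : ℝ) * ((γ 0 0 : ℤ) : ℝ) = (((d' : ℤ) * γ 0 0 : ℤ) : ℝ) * (g : ℝ) := by
    exact_mod_cast congrArg (Int.cast : ℤ → ℝ) e00
  have r01 : (N : ℝ) * ((γ 0 1 : ℤ) : ℝ) =
      (((d' : ℤ) * γ 0 0 : ℤ) : ℝ) * ((u * N * γ 0 1 + v * γ 1 1 : ℤ) : ℝ)
        + ((-v : ℤ) : ℝ) * (d' : ℝ) := by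
    exact_mod_cast congrArg (Int.cast : ℤ → ℝ) e01
  have r10 : ((γ 1 0 : ℤ) : ℝ) = (c' : ℝ) * (g : ℝ) := by
    exact_mod_cast congrArg (Int.cast : ℤ → ℝ) e10
  have r11 : ((γ 1 1 : ℤ) : ℝ) =
      (c' : ℝ) * ((u * N * γ 0 1 + v * γ 1 1 : ℤ) : ℝ) + (u : ℝ) * (d' : ℝ) := by
    exact_mod_cast congrArg (Int.cast : ℤ → ℝ) e11
  apply Units.ext
  rw [Units.val_mul, Units.val_mul, val_heckeDiagMatrix hN, val_upperTriangularGL, val_mapGL,
    val_mapGL, Matrix.mul_fin_two, Matrix.mul_fin_two]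
  simp only [deltaMat, Matrix.SpecialLinearGroup.coe_mk, Matrix.of_apply, Matrix.cons_val',
    Matrix.cons_val_zero, Matrix.cons_val_one, Matrix.cons_val_fin_one]
  simp only [zero_mul, add_zero, zero_add, one_mul, mul_zero]
  rw [r00, r01, r10, r11]

/-- `t = N⁻³ • (E₄ ∣[4] diag(N,1))`. -/
theorem tFun_eq_smul_slash (N : ℕ) (hN : N ≠ 0) :
    tFun N = ((N : ℂ) ^ (3 : ℕ))⁻¹ •
      ((ModularForm.E₄ : ℍ → ℂ) ∣[(4 : ℤ)] heckeDiagMatrix N) := by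
  have hNC : (N : ℂ) ≠ 0 := by exact_mod_cast hN
  funext w
  rw [Pi.smul_apply, slash_heckeDiagMatrix_apply 4 hN, smul_eq_mul]
  have h3 : (N : ℂ) ^ ((4 : ℤ) - 1) = (N : ℂ) ^ (3 : ℕ) := by
    rw [show ((4 : ℤ) - 1) = ((3 : ℕ) : ℤ) by norm_num, zpow_natCast]
  rw [h3, ← mul_assoc, inv_mul_cancel₀ (pow_ne_zero 3 hNC), one_mul]
  rfl

/-- The weight-4 slash of a function by a positive upper triangular matrix. -/
theorem slash_upperTriangular (f : ℍ → ℂ) (g b' d' : ℝ) (hg : 0 < g) (hd' : 0 < d')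
    (had : g * d' ≠ 0) (z : ℍ) :
    (f ∣[(4 : ℤ)] upperTriangularGL g b' d' had) z =
      f (upperTriangularGL g b' d' had • z) * ((g : ℂ) * (d' : ℂ)) ^ (3 : ℕ)
        * ((d' : ℂ) ^ (4 : ℕ))⁻¹ := by
  have hdet : ((upperTriangularGL g b' d' had).det : ℝ) = g * d' := by
    rw [Matrix.GeneralLinearGroup.val_det_apply, val_upperTriangularGL, Matrix.det_fin_two_of]
    ring
  have hdetpos : 0 < ((upperTriangularGL g b' d' had).det : ℝ) := by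
    rw [hdet]; exact mul_pos hg hd'
  have hσ : UpperHalfPlane.σ (upperTriangularGL g b' d' had) = .refl ℝ ℂ := by
    rw [UpperHalfPlane.σ, if_pos hdetpos]
  have hden : UpperHalfPlane.denom (upperTriangularGL g b' d' had) z = (d' : ℂ) := by
    simp [UpperHalfPlane.denom, val_upperTriangularGL]
  rw [ModularForm.slash_apply, hσ, hdet, hden, abs_of_pos (mul_pos hg hd')]
  simp only [ContinuousAlgEquiv.refl_apply, Complex.ofReal_mul]
  rw [show ((4 : ℤ) - 1) = ((3 : ℕ) : ℤ) by norm_num, zpow_natCast,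
    show (-(4 : ℤ)) = -((4 : ℕ) : ℤ) by norm_num, zpow_neg, zpow_natCast]

/-- The formula `(t ∣[4] γ)(z) = d'⁻⁴ * E₄(β • z)` when `diag(N,1) * γ = δ * β` with
`δ ∈ SL(2,ℤ)` and `β = [[g, b'], [0, d']]`, `g, d' > 0`, `g * d' = N`. -/
theorem slash_formula (N : ℕ) (hN : N ≠ 0) (γ δ : SL(2, ℤ)) (g b' d' : ℝ) (hg : 0 < g)
    (hd' : 0 < d') (had : g * d' ≠ 0) (hgd : g * d' = N)
    (hmat : heckeDiagMatrix N * Matrix.SpecialLinearGroup.mapGL ℝ γ =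
      Matrix.SpecialLinearGroup.mapGL ℝ δ * upperTriangularGL g b' d' had) (z : ℍ) :
    (tFun N ∣[(4 : ℤ)] γ) z =
      ((d' : ℂ) ^ (4 : ℕ))⁻¹ * ModularForm.E₄ (upperTriangularGL g b' d' had • z) := by
  have hNC : (N : ℂ) ≠ 0 := by exact_mod_cast hN
  have hδ : Matrix.SpecialLinearGroup.mapGL ℝ δ ∈ 𝒮ℒ := ⟨δ, rfl⟩
  have hβ : (ModularForm.E₄ : ℍ → ℂ) ∣[(4 : ℤ)]
        (heckeDiagMatrix N * Matrix.SpecialLinearGroup.mapGL ℝ γ) =
      (ModularForm.E₄ : ℍ → ℂ) ∣[(4 : ℤ)] upperTriangularGL g b' d' had := by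
    rw [hmat, SlashAction.slash_mul,
      SlashInvariantForm.slash_action_eqn ModularForm.E₄
        (Matrix.SpecialLinearGroup.mapGL ℝ δ) hδ]
  have hgdC : (g : ℂ) * (d' : ℂ) = (N : ℂ) := by exact_mod_cast congrArg (Complex.ofReal) hgd
  have hSL : ∀ f : ℍ → ℂ,
      f ∣[(4 : ℤ)] γ = f ∣[(4 : ℤ)] (Matrix.SpecialLinearGroup.mapGL ℝ γ) := fun _ => rfl
  rw [tFun_eq_smul_slash N hN, ModularForm.SL_smul_slash, hSL,
    ← SlashAction.slash_mul, hβ, Pi.smul_apply, slash_upperTriangular _ g b' d' hg hd' had z,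
    hgdC, smul_eq_mul]
  field_simp

end StabAux

/-- If `γ ∈ SL(2,ℤ)` fixes `t(z) = E₄(N z)` under the weight-4 slash action then `γ ∈ Γ₀(N)`. -/
theorem tFun_stabilizer (N : ℕ) [NeZero N] (γ : SL(2, ℤ))
    (h : tFun N ∣[(4 : ℤ)] γ = tFun N) : γ ∈ CongruenceSubgroup.Gamma0 N := by
  have hN : N ≠ 0 := NeZero.ne N
  have hdet : γ 0 0 * γ 1 1 - γ 0 1 * γ 1 0 = 1 := by
    have := γ.det_coe
    rwa [Matrix.det_fin_two] at this
  obtain ⟨g, d', c', u, v, hg, hd', hgd, hc, huv⟩ :=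
    StabAux.exists_decomp N hN (γ 0 0) (γ 0 1) (γ 1 0) (γ 1 1) hdet
  have hgR : (0 : ℝ) < (g : ℝ) := by exact_mod_cast hg
  have hd'R : (0 : ℝ) < (d' : ℝ) := by exact_mod_cast hd'
  have had : (g : ℝ) * (d' : ℝ) ≠ 0 := (mul_pos hgR hd'R).ne'
  have hgdR : (g : ℝ) * (d' : ℝ) = (N : ℝ) := by exact_mod_cast hgd
  have hmat := StabAux.matrix_identity N hN γ g d' c' u v hgd hc huv had
  -- the limit of `t` at `i∞` is `1`
  have hlim1 : Filter.Tendsto (tFun N) atImInfty (nhds 1) :=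
    StabAux.tendsto_E₄.comp
      (tendsto_smul_atImInfty (g := heckeDiagMatrix N) (by simp [val_heckeDiagMatrix hN]))
  -- the limit of `t ∣[4] γ` at `i∞` is `d'⁻⁴`
  have hlim2 : Filter.Tendsto (tFun N ∣[(4 : ℤ)] γ) atImInfty
      (nhds ((((d' : ℝ) : ℂ) ^ (4 : ℕ))⁻¹ * 1)) := by
    have h2 := (StabAux.tendsto_E₄.comp
      (tendsto_smul_atImInfty
        (g := upperTriangularGL (g : ℝ) ((u * N * γ 0 1 + v * γ 1 1 : ℤ) : ℝ) (d' : ℝ) had)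
        (by simp [val_upperTriangularGL]))).const_mul ((((d' : ℝ) : ℂ) ^ (4 : ℕ))⁻¹)
    refine h2.congr (fun z => ?_)
    exact (StabAux.slash_formula N hN γ _ (g : ℝ) _ (d' : ℝ) hgR hd'R had hgdR hmat z).symm
  rw [h] at hlim2
  have hval := tendsto_nhds_unique hlim1 hlim2
  have hd4 : ((d' : ℝ) : ℂ) ^ (4 : ℕ) = 1 := by
    rw [mul_one] at hval
    exact inv_eq_one.mp hval.symm
  have hd1 : d' = 1 := by
    have h4 : d' ^ 4 = 1 := by exact_mod_cast hd4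
    exact (Nat.pow_eq_one.mp h4).resolve_right (by norm_num)
  rw [CongruenceSubgroup.Gamma0_mem, ZMod.intCast_zmod_eq_zero_iff_dvd]
  subst hd1
  refine ⟨c', ?_⟩
  rw [hc, ← hgd]
  push_cast
  ring

end Fermat.Agent.S23
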