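import Fermat.Agent.S23.Conj
import Fermat.Agent.S23.Prim
import Fermat.Agent.S23.Stab

/-!
# S23 / WP-P: the trace-matrix identity

For `f` of level `Γ₀(N)` and the primitive element `t`, with `M = (Tr(t^(i+j)))`, `b = (Tr(t^j f))`
(level-one modular forms), we have pointwise `det(M) * f = ∑ j, t^j * (adj(M) b)_j`, and `det(M)`
is not identically zero.
-/

set_option autoImplicit false

open UpperHalfPlane ModularForm CongruenceSubgroup
open scoped MatrixGroups ModularForm Manifold

namespace Fermat.Agent.S23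

/-- Pure linear algebra: for a square matrix `V` (rows indexed by conjugates, columns by
exponents), `V * adj(Vᵀ V) * Vᵀ = det(Vᵀ V)`. -/
theorem vandermonde_adjugate_identity {n : ℕ} (V : Matrix (Fin n) (Fin n) ℂ) (φ : Fin n → ℂ) :
    V.mulVec ((Matrix.adjugate (V.transpose * V)).mulVec (V.transpose.mulVec φ)) =
      (Matrix.det (V.transpose * V)) • φ := by
  have key : V * Matrix.adjugate (V.transpose * V) * V.transpose =
      Matrix.det (V.transpose * V) • (1 : Matrix (Fin n) (Fin n) ℂ) := by
    have h1 : V * Matrix.adjugate (V.transpose * V) * V.transpose =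
        (V * Matrix.adjugate V) * (Matrix.adjugate V.transpose * V.transpose) := by
      rw [Matrix.adjugate_mul_distrib]
      simp only [Matrix.mul_assoc]
    rw [h1, Matrix.mul_adjugate, Matrix.adjugate_mul, Matrix.det_mul, Matrix.det_transpose,
      Matrix.smul_mul, Matrix.one_mul, smul_smul]
  rw [Matrix.mulVec_mulVec, Matrix.mulVec_mulVec, key, Matrix.smul_mulVec, Matrix.one_mulVec]

namespace AlgDataAux

variable {N : ℕ} [NeZero N]

/-- The matrix of traces `Tr(t^(i+j))` at a point is `Vᵀ * V` for the Vandermonde matrix `V` of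
the values of the conjugates of `t`. -/
theorem traceMatrix_eq {k : ℤ} (t : ModularForm (Gam N) k) (z : ℍ) :
    (Matrix.of fun i j : Fin (psi N) =>
        ModularForm.trace 𝒮ℒ (t.pow ((i : ℕ) + (j : ℕ))) z) =
      (Matrix.vandermonde fun l => cj t l z).transpose *
        Matrix.vandermonde fun l => cj t l z := by
  ext i j
  rw [Matrix.vandermonde_transpose_mul_vandermonde, Matrix.of_apply, trace_apply]
  refine Finset.sum_congr rfl fun l _ => ?_
  rw [cj_pow, Pi.pow_apply]

/-- The vector of traces `Tr(t^j f)` at a point is `Vᵀ y` where `y` is the vector of the values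
of the conjugates of `f`. -/
theorem traceVector_eq {k₁ k₂ : ℤ} (t : ModularForm (Gam N) k₁) (f : ModularForm (Gam N) k₂)
    (z : ℍ) :
    (fun j : Fin (psi N) => ModularForm.trace 𝒮ℒ ((t.pow (j : ℕ)).mul f) z) =
      (Matrix.vandermonde fun l => cj t l z).transpose.mulVec fun l => cj f l z := by
  funext j
  rw [trace_apply, Matrix.mulVec, dotProduct]
  refine Finset.sum_congr rfl fun l _ => ?_
  rw [cj_mul, cj_pow, Pi.mul_apply, Pi.pow_apply, Matrix.transpose_apply, Matrix.vandermonde_apply]

end AlgDataAux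

open AlgDataAux in
/-- The algebraic data attached to a modular form `f` of level `Γ₀(N)` and weight `k`. -/
theorem exists_alg_data (N : ℕ) [NeZero N] (k : ℤ) (f : ModularForm (Gam N) k) :
    ∃ (t : ModularForm (Gam N) 4)
      (m : ∀ i j : Fin (psi N), ModularForm 𝒮ℒ ((((i : ℕ) + (j : ℕ) : ℕ) : ℤ) * 4))
      (b : ∀ j : Fin (psi N), ModularForm 𝒮ℒ ((((j : ℕ) : ℤ) * 4) + k)),
      (∃ c : ℤ, c ≠ 0 ∧ IsIntSeries ((c : ℂ) • qExpansion 1 t)) ∧
      (∃ z : ℍ, Matrix.det (Matrix.of fun i j => m i j z) ≠ 0) ∧
      (∀ z : ℍ, Matrix.det (Matrix.of fun i j => m i j z) * f z =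
          ∑ j : Fin (psi N), t z ^ (j : ℕ) *
            ((Matrix.adjugate (Matrix.of fun i j => m i j z)).mulVec (fun j => b j z)) j) := by
  obtain ⟨t, ht⟩ := exists_tForm N
  refine ⟨t, fun i j => ModularForm.trace 𝒮ℒ (t.pow ((i : ℕ) + (j : ℕ))),
    fun j => ModularForm.trace 𝒮ℒ ((t.pow (j : ℕ)).mul f), ?_, ?_, ?_⟩
  · -- rationality of the `q`-expansion of `t`
    rw [ht]
    exact tFun_qExpansion N
  · -- the determinant does not vanish identically
    have hinj : Function.Injective (cj t) :=
      cj_injective_of_stabilizer t fun γ h => tFun_stabilizer N γ (by rw [← ht]; exact h)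
    obtain ⟨z, hz⟩ := exists_point_injective (cj t) (fun i => cj_mdiff t i) hinj
    refine ⟨z, ?_⟩
    rw [traceMatrix_eq t z, Matrix.det_mul, Matrix.det_transpose]
    have hdet : Matrix.det (Matrix.vandermonde fun l => cj t l z) ≠ 0 :=
      Matrix.det_vandermonde_ne_zero_iff.mpr hz
    exact mul_ne_zero hdet hdet
  · -- the identity
    intro z
    rw [traceMatrix_eq t z, traceVector_eq t f z]
    have h := congrFun (vandermonde_adjugate_identity
      (Matrix.vandermonde fun l => cj t l z) (fun l => cj f l z)) (i0 N)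
    rw [Pi.smul_apply, smul_eq_mul, cj_i0] at h
    rw [← h, Matrix.mulVec, dotProduct]
    refine Finset.sum_congr rfl fun j _ => ?_
    rw [Matrix.vandermonde_apply, cj_i0]

end Fermat.Agent.S23
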