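import Fermat.Agent.S23.Defs

/-!
# S23 / WP-D: the division lemma

If `G / D` transforms like a weight-`k` form for `Γ₀(N)` and satisfies a monic polynomial equation
whose coefficients are level-one cusp forms, then `G / D` extends to a cusp form of level `Γ₀(N)`.
-/

set_option autoImplicit false

open UpperHalfPlane ModularForm CongruenceSubgroup
open scoped MatrixGroups ModularForm Manifold

namespace Fermat.Agent.S23

namespace DivisionAux

open scoped Topology

/-- Basic bound for a root of a monic polynomial. -/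
theorem root_bound {n : ℕ} (c : Fin n → ℂ) (x : ℂ)
    (h : x ^ n + ∑ s : Fin n, c s * x ^ (n - 1 - (s : ℕ)) = 0) :
    ‖x‖ ^ n ≤ (∑ s : Fin n, ‖c s‖) * max 1 ‖x‖ ^ (n - 1) := by
  have hx : x ^ n = -∑ s : Fin n, c s * x ^ (n - 1 - (s : ℕ)) := eq_neg_of_add_eq_zero_left h
  calc ‖x‖ ^ n = ‖x ^ n‖ := (norm_pow x n).symm
    _ = ‖∑ s : Fin n, c s * x ^ (n - 1 - (s : ℕ))‖ := by rw [hx, norm_neg]
    _ ≤ ∑ s : Fin n, ‖c s * x ^ (n - 1 - (s : ℕ))‖ := norm_sum_le _ _
    _ ≤ ∑ s : Fin n, ‖c s‖ * max 1 ‖x‖ ^ (n - 1) := by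
        refine Finset.sum_le_sum fun s _ => ?_
        rw [norm_mul, norm_pow]
        refine mul_le_mul_of_nonneg_left ?_ (norm_nonneg _)
        calc ‖x‖ ^ (n - 1 - (s : ℕ)) ≤ max 1 ‖x‖ ^ (n - 1 - (s : ℕ)) :=
              pow_le_pow_left₀ (norm_nonneg _) (le_max_right _ _) _
          _ ≤ max 1 ‖x‖ ^ (n - 1) := pow_le_pow_right₀ (le_max_left _ _) (Nat.sub_le _ _)
    _ = (∑ s : Fin n, ‖c s‖) * max 1 ‖x‖ ^ (n - 1) := (Finset.sum_mul _ _ _).symm

/-- A root of a monic polynomial is bounded by `max 1 (∑ ‖coefficients‖)`. -/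
theorem root_bound_max {n : ℕ} (c : Fin n → ℂ) (x : ℂ)
    (h : x ^ n + ∑ s : Fin n, c s * x ^ (n - 1 - (s : ℕ)) = 0) :
    ‖x‖ ≤ max 1 (∑ s : Fin n, ‖c s‖) := by
  rcases le_or_gt ‖x‖ 1 with hx | hx
  · exact hx.trans (le_max_left _ _)
  · refine le_trans ?_ (le_max_right _ _)
    have hn : n ≠ 0 := by
      rintro rfl
      simp at h
    have hb := root_bound c x h
    rw [max_eq_right hx.le] at hb
    have hpos : 0 < ‖x‖ ^ (n - 1) := pow_pos (by linarith) _
    have hxn : ‖x‖ ^ n = ‖x‖ * ‖x‖ ^ (n - 1) := by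
      rw [← pow_succ']
      congr 1
      omega
    rw [hxn] at hb
    exact le_of_mul_le_mul_right hb hpos

/-- A root of a monic polynomial with small coefficients is small. -/
theorem root_bound_small {n : ℕ} (c : Fin n → ℂ) (x : ℂ)
    (h : x ^ n + ∑ s : Fin n, c s * x ^ (n - 1 - (s : ℕ)) = 0)
    (hS : ∑ s : Fin n, ‖c s‖ < 1) :
    ‖x‖ ^ n ≤ ∑ s : Fin n, ‖c s‖ := by
  have h1 : ‖x‖ ≤ 1 := by
    have := root_bound_max c x h
    rwa [max_eq_left hS.le] at this
  have hb := root_bound c x h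
  rwa [max_eq_left h1, one_pow, mul_one] at hb

/-- A holomorphic function on `ℍ` killed by a nonzero holomorphic function vanishes. -/
theorem holo_eq_zero_of_mul_eq_zero (D R : ℍ → ℂ) (hD : MDiff D) (hR : MDiff R) (hD0 : ∃ z, D z ≠ 0)
    (h : ∀ z, R z * D z = 0) (z : ℍ) : R z = 0 := by
  have h0 : R * D = 0 := funext h
  rcases (UpperHalfPlane.mul_eq_zero_iff hR hD).mp h0 with h1 | h1
  · exact congrFun h1 z
  · obtain ⟨w, hw⟩ := hD0
    exact absurd (congrFun h1 w) hw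

/-- Removable singularities: a locally bounded quotient of holomorphic functions on `ℍ` is
holomorphic. -/
theorem exists_quotient (D G : ℍ → ℂ) (hD : MDiff D) (hG : MDiff G) (hD0 : ∃ z, D z ≠ 0)
    (B : ℍ → ℝ) (hB : Continuous B)
    (hbd : ∀ z, D z ≠ 0 → ‖G z / D z‖ ≤ B z)
    (hzero : ∀ z, D z = 0 → G z = 0) :
    ∃ F : ℍ → ℂ, MDiff F ∧ ∀ z, F z * D z = G z := by
  classical
  set q : ℂ → ℂ := fun w => G (ofComplex w) / D (ofComplex w) with hq
  set Fc : ℂ → ℂ := fun w =>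
    if D (ofComplex w) = 0 then Filter.limUnder (𝓝[≠] w) q else q w with hFc
  refine ⟨fun z => Fc z, ?_, ?_⟩
  · -- holomorphy
    intro τ
    rw [UpperHalfPlane.mdifferentiableAt_iff]
    have hH : {w : ℂ | 0 < w.im} ∈ 𝓝 (τ : ℂ) := isOpen_upperHalfPlaneSet.mem_nhds τ.im_pos
    have hcongr : ((fun z : ℍ => Fc z) ∘ ofComplex) =ᶠ[𝓝 (τ : ℂ)] Fc := by
      filter_upwards [hH] with w hw
      simp only [Function.comp_apply]
      rw [ofComplex_apply_of_im_pos hw]
    refine DifferentiableAt.congr_of_eventuallyEq ?_ hcongr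
    have hd : ∀ w : ℂ, 0 < w.im → DifferentiableAt ℂ (D ∘ ofComplex) w := fun w hw =>
      (UpperHalfPlane.mdifferentiable_iff.mp hD).differentiableAt
        (isOpen_upperHalfPlaneSet.mem_nhds hw)
    have hg : ∀ w : ℂ, 0 < w.im → DifferentiableAt ℂ (G ∘ ofComplex) w := fun w hw =>
      (UpperHalfPlane.mdifferentiable_iff.mp hG).differentiableAt
        (isOpen_upperHalfPlaneSet.mem_nhds hw)
    have hqd : ∀ w : ℂ, 0 < w.im → D (ofComplex w) ≠ 0 → DifferentiableAt ℂ q w :=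
      fun w hw hw0 => (hg w hw).div (hd w hw) hw0
    by_cases h0 : D τ = 0
    · -- removable singularity
      have hiso : ∀ᶠ w in 𝓝[≠] (τ : ℂ), D (ofComplex w) ≠ 0 := by
        have han : AnalyticOnNhd ℂ (D ∘ ofComplex) {z | 0 < z.im} :=
          (UpperHalfPlane.mdifferentiable_iff.mp hD).analyticOnNhd isOpen_upperHalfPlaneSet
        rcases (han τ τ.im_pos).eventually_eq_zero_or_eventually_ne_zero with h | h
        · exfalso
          have hpc : IsPreconnected {z : ℂ | 0 < z.im} :=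
            (Complex.isConnected_of_upperHalfPlane subset_rfl (by grind)).isPreconnected
          have hzero' := han.eqOn_zero_of_preconnected_of_eventuallyEq_zero hpc τ.im_pos h
          obtain ⟨z1, hz1⟩ := hD0
          apply hz1
          have := hzero' z1.im_pos
          simpa [ofComplex_apply] using this
        · exact h
      have hBev : ∀ᶠ w in 𝓝 (τ : ℂ), B (ofComplex w) < B τ + 1 := by
        have h1 : ∀ᶠ z in 𝓝 τ, B z < B τ + 1 :=
          (hB.tendsto τ).eventually (gt_mem_nhds (by linarith))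
        rw [← isOpenEmbedding_coe.map_nhds_eq, Filter.eventually_map]
        filter_upwards [h1] with z hz
        rwa [ofComplex_apply]
      set s : Set ℂ :=
        {w | 0 < w.im ∧ (w ≠ τ → D (ofComplex w) ≠ 0) ∧ B (ofComplex w) < B τ + 1} with hs
      have hs_nhds : s ∈ 𝓝 (τ : ℂ) := by
        filter_upwards [hH, eventually_nhdsWithin_iff.mp hiso, hBev] with w h1 h2 h3
        exact ⟨h1, h2, h3⟩
      have hdiff : DifferentiableOn ℂ q (s \ {(τ : ℂ)}) := by
        rintro w ⟨⟨hw1, hw2, hw3⟩, hw4⟩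
        exact (hqd w hw1 (hw2 hw4)).differentiableWithinAt
      have hbdd : BddAbove (norm ∘ q '' (s \ {(τ : ℂ)})) := by
        refine ⟨B τ + 1, ?_⟩
        rintro _ ⟨w, ⟨⟨hw1, hw2, hw3⟩, hw4⟩, rfl⟩
        simp only [Function.comp_apply]
        exact (hbd _ (hw2 hw4)).trans hw3.le
      have hupd := Complex.differentiableOn_update_limUnder_of_bddAbove hs_nhds hdiff hbdd
      have hat := hupd.differentiableAt hs_nhds
      refine hat.congr_of_eventuallyEq ?_
      filter_upwards [hs_nhds] with w hw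
      by_cases hwτ : w = τ
      · rw [hwτ]
        simp [hFc, ofComplex_apply, h0]
      · simp [hFc, Function.update_of_ne hwτ, hw.2.1 hwτ]
    · have hne : ∀ᶠ w in 𝓝 (τ : ℂ), D (ofComplex w) ≠ 0 := by
        have hcont : ContinuousAt (D ∘ ofComplex) τ := (hd τ τ.im_pos).continuousAt
        have hne0 : (D ∘ ofComplex) τ ≠ 0 := by simpa [ofComplex_apply] using h0
        exact hcont.eventually_ne hne0
      have hFq : Fc =ᶠ[𝓝 (τ : ℂ)] q := by
        filter_upwards [hne] with w hw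
        simp only [hFc, if_neg hw]
      exact (hqd τ τ.im_pos (by simpa [ofComplex_apply] using h0)).congr_of_eventuallyEq hFq
  · intro z
    by_cases h0 : D z = 0
    · rw [h0, mul_zero, hzero z h0]
    · simp only [hFc, hq, ofComplex_apply, if_neg h0]
      field_simp

/-- A function satisfying a monic equation whose coefficients vanish at `i∞` vanishes at `i∞`. -/
theorem isZeroAtImInfty_of_rel {n : ℕ} (c : Fin n → ℍ → ℂ) (x : ℍ → ℂ)
    (hc : ∀ s, IsZeroAtImInfty (c s))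
    (h : ∀ z, x z ^ n + ∑ s : Fin n, c s z * x z ^ (n - 1 - (s : ℕ)) = 0) :
    IsZeroAtImInfty x := by
  have hS : Filter.Tendsto (fun z : ℍ => ∑ s : Fin n, ‖c s z‖) atImInfty (𝓝 0) := by
    have h1 : Filter.Tendsto (fun z : ℍ => ∑ s : Fin n, ‖c s z‖) atImInfty
        (𝓝 (∑ _s : Fin n, (0 : ℝ))) :=
      tendsto_finsetSum _ fun s _ => by
        have h2 : Filter.Tendsto (c s) atImInfty (𝓝 0) := hc s
        simpa using h2.norm
    simpa using h1
  show Filter.Tendsto x atImInfty (𝓝 0)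
  rw [tendsto_zero_iff_norm_tendsto_zero, Metric.tendsto_nhds]
  intro ε hε
  have hε' : 0 < min 1 (ε ^ n) := lt_min one_pos (pow_pos hε n)
  have hev : ∀ᶠ z in atImInfty, ∑ s : Fin n, ‖c s z‖ < min 1 (ε ^ n) :=
    hS.eventually (gt_mem_nhds hε')
  filter_upwards [hev] with z hz
  have h1 := root_bound_small (fun s => c s z) (x z) (h z) (hz.trans_le (min_le_left _ _))
  have h2 : ‖x z‖ ^ n < ε ^ n := h1.trans_lt (hz.trans_le (min_le_right _ _))
  have h3 : ‖x z‖ < ε := lt_of_pow_lt_pow_left₀ n hε.le h2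
  simpa using h3

/-- The monic relation is stable under the slash action of `SL(2,ℤ)`. -/
theorem slash_rel (k : ℤ) {n : ℕ} (F : ℍ → ℂ)
    (a : ∀ s : Fin n, ModularForm 𝒮ℒ ((((s : ℕ) + 1 : ℕ) : ℤ) * k))
    (h : ∀ z : ℍ, F z ^ n + ∑ s : Fin n, a s z * F z ^ (n - 1 - (s : ℕ)) = 0)
    (γ : SL(2, ℤ)) (z : ℍ) :
    (F ∣[k] γ) z ^ n + ∑ s : Fin n, a s z * (F ∣[k] γ) z ^ (n - 1 - (s : ℕ)) = 0 := by
  have hd : denom γ z ≠ 0 := denom_ne_zero _ z
  set u : ℂ := denom γ z ^ k with hu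
  have hu0 : u ≠ 0 := zpow_ne_zero k hd
  have ha : ∀ s : Fin n, a s (γ • z) = u ^ ((s : ℕ) + 1) * a s z := by
    intro s
    have hmem : (Matrix.SpecialLinearGroup.mapGL ℝ γ) ∈ 𝒮ℒ := ⟨γ, rfl⟩
    have h1 := SlashInvariantForm.slash_action_eqn'' (a s) hmem z
    have h2 : denom γ z ^ ((((s : ℕ) + 1 : ℕ) : ℤ) * k) = u ^ ((s : ℕ) + 1) := by
      rw [hu, mul_comm, zpow_mul, zpow_natCast]
    rw [← h2]
    exact h1
  have hslash : (F ∣[k] γ) z = F (γ • z) * u⁻¹ := by
    rw [SL_slash_apply, zpow_neg]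
  have h1 := h (γ • z)
  simp only [ha] at h1
  have key : (F (γ • z) * u⁻¹) ^ n +
      ∑ s : Fin n, a s z * (F (γ • z) * u⁻¹) ^ (n - 1 - (s : ℕ)) =
      (u⁻¹) ^ n * (F (γ • z) ^ n +
        ∑ s : Fin n, u ^ ((s : ℕ) + 1) * a s z * F (γ • z) ^ (n - 1 - (s : ℕ))) := by
    rw [mul_add, Finset.mul_sum, mul_pow]
    congr 1
    · ring
    · refine Finset.sum_congr rfl fun s _ => ?_
      have hpow : (u⁻¹) ^ n = (u⁻¹) ^ (n - 1 - (s : ℕ)) * (u⁻¹) ^ ((s : ℕ) + 1) := by
        rw [← pow_add]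
        congr 1
        have := s.2
        omega
      rw [hpow, mul_pow, inv_pow, inv_pow]
      field_simp
  rw [hslash, key, h1, mul_zero]

/-- The relation for the quotient. -/
theorem rel_quot {n : ℕ} (D G F : ℍ → ℂ) (hD : MDiff D) (hF : MDiff F) (hD0 : ∃ z, D z ≠ 0)
    (hFD : ∀ z, F z * D z = G z)
    (a : Fin n → ℍ → ℂ) (ha : ∀ s, MDiff (a s))
    (hrel : ∀ z : ℍ, G z ^ n +
        ∑ s : Fin n, a s z * G z ^ (n - 1 - (s : ℕ)) * D z ^ ((s : ℕ) + 1) = 0) (z : ℍ) :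
    F z ^ n + ∑ s : Fin n, a s z * F z ^ (n - 1 - (s : ℕ)) = 0 := by
  set R : ℍ → ℂ := F ^ n + ∑ s : Fin n, a s * F ^ (n - 1 - (s : ℕ)) with hRdef
  have hR : MDiff R := (hF.pow n).add (MDifferentiable.sum fun s _ => (ha s).mul (hF.pow _))
  have hDn : MDiff (D ^ n) := hD.pow n
  have hDn0 : ∃ z, (D ^ n) z ≠ 0 := by
    obtain ⟨w, hw⟩ := hD0
    exact ⟨w, pow_ne_zero n hw⟩
  have hRw : ∀ w, R w = F w ^ n + ∑ s : Fin n, a s w * F w ^ (n - 1 - (s : ℕ)) := by
    intro w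
    simp only [hRdef, Pi.add_apply, Pi.pow_apply, Finset.sum_apply, Pi.mul_apply]
  have key : ∀ w, R w * (D ^ n) w = 0 := by
    intro w
    have : R w * (D ^ n) w =
        G w ^ n + ∑ s : Fin n, a s w * G w ^ (n - 1 - (s : ℕ)) * D w ^ ((s : ℕ) + 1) := by
      rw [hRw, Pi.pow_apply, add_mul, Finset.sum_mul, ← mul_pow, hFD]
      congr 1
      refine Finset.sum_congr rfl fun s _ => ?_
      have hpow : D w ^ n = D w ^ (n - 1 - (s : ℕ)) * D w ^ ((s : ℕ) + 1) := by
        rw [← pow_add]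
        congr 1
        have := s.2
        omega
      rw [hpow, ← hFD w, mul_pow]
      ring
    rw [this, hrel]
  have hz := holo_eq_zero_of_mul_eq_zero (D ^ n) R hDn hR hDn0 key z
  rw [hRw] at hz
  exact hz

/-- Slash invariance of the quotient. -/
theorem slash_quot (k : ℤ) (D G F : ℍ → ℂ) (hD : MDiff D) (hF : MDiff F) (hD0 : ∃ z, D z ≠ 0)
    (hFD : ∀ z, F z * D z = G z) (γ : SL(2, ℤ))
    (htrans : ∀ z : ℍ, G (γ • z) * D z = (denom γ z) ^ k * G z * D (γ • z)) :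
    F ∣[k] γ = F := by
  have hR : MDiff (F ∣[k] γ - F) := (hF.slash k (γ : GL (Fin 2) ℝ)).sub hF
  have hDγ : MDiff (fun z : ℍ => D (γ • z)) :=
    hD.comp (mdifferentiable_smul (g := (γ : GL (Fin 2) ℝ)) (by simp))
  have hDγ0 : ∃ z, D (γ • z) ≠ 0 := by
    obtain ⟨w, hw⟩ := hD0
    exact ⟨γ⁻¹ • w, by rwa [smul_inv_smul]⟩
  have key : ∀ z, ((F ∣[k] γ - F) z * D z) * D (γ • z) = 0 := by
    intro z
    have hd : denom γ z ≠ 0 := denom_ne_zero _ z
    have h1 := htrans z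
    rw [← hFD (γ • z), ← hFD z] at h1
    rw [Pi.sub_apply, SL_slash_apply, zpow_neg]
    field_simp
    linear_combination h1
  have h1 : ∀ z, (F ∣[k] γ - F) z * D z = 0 :=
    holo_eq_zero_of_mul_eq_zero (fun z => D (γ • z)) (fun z => (F ∣[k] γ - F) z * D z) hDγ
      (hR.mul hD) hDγ0 key
  funext z
  have h2 := holo_eq_zero_of_mul_eq_zero D _ hD hR hD0 h1 z
  exact sub_eq_zero.mp h2

end DivisionAux

theorem division_cusp (N : ℕ) [NeZero N] (k : ℤ) (n : ℕ) (D G : ℍ → ℂ)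
    (hD : MDiff D) (hG : MDiff G) (hD0 : ∃ z, D z ≠ 0)
    (htrans : ∀ γ ∈ CongruenceSubgroup.Gamma0 N, ∀ z : ℍ,
        G (γ • z) * D z = (denom γ z) ^ k * G z * D (γ • z))
    (a : ∀ s : Fin n, ModularForm 𝒮ℒ ((((s : ℕ) + 1 : ℕ) : ℤ) * k))
    (ha : ∀ s, IsZeroAtImInfty (a s : ℍ → ℂ))
    (hrel : ∀ z : ℍ, G z ^ n +
        ∑ s : Fin n, a s z * G z ^ (n - 1 - (s : ℕ)) * D z ^ ((s : ℕ) + 1) = 0) :
    ∃ F : CuspForm (Gam N) k, ∀ z : ℍ, F z * D z = G z := by
  -- `n ≠ 0`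
  have hn : n ≠ 0 := by
    rintro rfl
    simpa using hrel UpperHalfPlane.I
  -- zeros of `D` are zeros of `G`
  have hzero : ∀ z, D z = 0 → G z = 0 := by
    intro z hz
    have h := hrel z
    simp only [hz, ne_eq, Nat.add_eq_zero_iff, one_ne_zero, and_false, not_false_eq_true,
      zero_pow, mul_zero, Finset.sum_const_zero, add_zero] at h
    exact pow_eq_zero_iff hn |>.mp h
  -- the local bound
  have hbd : ∀ z, D z ≠ 0 → ‖G z / D z‖ ≤ max 1 (∑ s : Fin n, ‖a s z‖) := by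
    intro z hz
    refine DivisionAux.root_bound_max (fun s => a s z) (G z / D z) ?_
    have h := hrel z
    have hDn : D z ^ n ≠ 0 := pow_ne_zero n hz
    have : (G z / D z) ^ n + ∑ s : Fin n, a s z * (G z / D z) ^ (n - 1 - (s : ℕ)) =
        (G z ^ n + ∑ s : Fin n, a s z * G z ^ (n - 1 - (s : ℕ)) * D z ^ ((s : ℕ) + 1)) /
          D z ^ n := by
      rw [add_div, Finset.sum_div, div_pow]
      congr 1
      refine Finset.sum_congr rfl fun s _ => ?_
      have hpow : D z ^ n = D z ^ (n - 1 - (s : ℕ)) * D z ^ ((s : ℕ) + 1) := by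
        rw [← pow_add]
        congr 1
        have := s.2
        omega
      rw [div_pow, hpow]
      field_simp
    rw [this, h, zero_div]
  have hBcont : Continuous fun z : ℍ => max (1 : ℝ) (∑ s : Fin n, ‖a s z‖) := by
    refine continuous_const.max (continuous_finsetSum _ fun s _ => ?_)
    exact (ModularFormClass.continuous (a s)).norm
  obtain ⟨F, hF, hFD⟩ := DivisionAux.exists_quotient D G hD hG hD0 _ hBcont hbd hzero
  have hrelF : ∀ z, F z ^ n + ∑ s : Fin n, a s z * F z ^ (n - 1 - (s : ℕ)) = 0 :=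
    DivisionAux.rel_quot D G F hD hF hD0 hFD (fun s => a s)
      (fun s => ModularFormClass.holo (a s)) hrel
  have hslash : ∀ γ ∈ CongruenceSubgroup.Gamma0 N, F ∣[k] γ = F := fun γ hγ =>
    DivisionAux.slash_quot k D G F hD hF hD0 hFD γ (htrans γ hγ)
  have hcusp : ∀ γ : SL(2, ℤ), IsZeroAtImInfty (F ∣[k] γ) := fun γ =>
    DivisionAux.isZeroAtImInfty_of_rel (fun s => a s) _ ha
      (DivisionAux.slash_rel k F a hrelF γ)
  refine ⟨{ toFun := F
            slash_action_eq' := ?_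
            holo' := hF
            zero_at_cusps' := ?_ }, hFD⟩
  · rintro g ⟨γ, hγ, rfl⟩
    exact hslash γ hγ
  · intro c hc
    have hc' : IsCusp c 𝒮ℒ := (Subgroup.IsArithmetic.isCusp_iff_isCusp_SL2Z (Gam N)).mp hc
    exact (OnePoint.isZeroAt_iff_forall_SL2Z hc').mpr fun γ _ => hcusp γ

end Fermat.Agent.S23
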