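import Fermat.Agent.S23.Defs

/-!
# S23 / WP-K0: bounded denominators from integrality (uses that `ℤ⟦X⟧` is integrally closed)
-/

set_option autoImplicit false

namespace Fermat.Agent.S23

namespace IntClosedAux

/-- A power series over `ℂ` is integral iff it is the image of a power series over `ℤ`. -/
theorem isIntSeries_iff (P : PowerSeries ℂ) :
    IsIntSeries P ↔ ∃ p : PowerSeries ℤ, PowerSeries.map (Int.castRingHom ℂ) p = P := by
  constructor
  · intro h
    choose m hm using h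
    refine ⟨PowerSeries.mk m, ?_⟩
    ext n
    simp [hm n]
  · rintro ⟨p, rfl⟩ n
    exact ⟨PowerSeries.coeff n p, by simp⟩

/-- A power series over `ℂ` with rational coefficients comes from a power series over `ℚ`. -/
theorem exists_rat_series (x : PowerSeries ℂ) (hx : IsRatSeries x) :
    ∃ xq : PowerSeries ℚ, x = PowerSeries.map (algebraMap ℚ ℂ) xq := by
  choose r hr using hx
  refine ⟨PowerSeries.mk r, ?_⟩
  ext n
  simp [hr n]

/-- The set of integral series is the carrier of a subsemiring. -/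
theorem spanIntSet_eq :
    spanIntSet = ((PowerSeries.map (Int.castRingHom ℂ)).rangeS : Set (PowerSeries ℂ)) := by
  ext P
  simp only [spanIntSet, Set.mem_ofPred_eq, isIntSeries_iff, SetLike.mem_coe, RingHom.mem_rangeS]

/-- Coefficientwise application of a `ℚ`-linear functional `ℂ → ℚ` to a power series. -/
noncomputable def proj (π : ℂ →ₗ[ℚ] ℚ) (P : PowerSeries ℂ) : PowerSeries ℚ :=
  PowerSeries.mk fun n => π (PowerSeries.coeff n P)

theorem coeff_proj (π : ℂ →ₗ[ℚ] ℚ) (P : PowerSeries ℂ) (n : ℕ) :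
    PowerSeries.coeff n (proj π P) = π (PowerSeries.coeff n P) := by
  simp [proj]

theorem proj_zero (π : ℂ →ₗ[ℚ] ℚ) : proj π 0 = 0 := by
  ext n
  simp [coeff_proj]

theorem proj_add (π : ℂ →ₗ[ℚ] ℚ) (P Q : PowerSeries ℂ) :
    proj π (P + Q) = proj π P + proj π Q := by
  ext n
  simp [coeff_proj]

theorem proj_sum (π : ℂ →ₗ[ℚ] ℚ) {ι : Type*} (s : Finset ι) (P : ι → PowerSeries ℂ) :
    proj π (∑ i ∈ s, P i) = ∑ i ∈ s, proj π (P i) := by
  ext n
  simp [coeff_proj, map_sum]

theorem proj_mul_map (π : ℂ →ₗ[ℚ] ℚ) (P : PowerSeries ℂ) (y : PowerSeries ℚ) :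
    proj π (P * PowerSeries.map (algebraMap ℚ ℂ) y) = proj π P * y := by
  ext n
  simp only [coeff_proj, PowerSeries.coeff_mul, map_sum, PowerSeries.coeff_map]
  refine Finset.sum_congr rfl fun ij _ => ?_
  rw [mul_comm, ← Algebra.smul_def, map_smul, smul_eq_mul, mul_comm]

theorem proj_map (π : ℂ →ₗ[ℚ] ℚ) (hπ : π 1 = 1) (y : PowerSeries ℚ) :
    proj π (PowerSeries.map (algebraMap ℚ ℂ) y) = y := by
  ext n
  simp only [coeff_proj, PowerSeries.coeff_map]
  rw [Algebra.algebraMap_eq_smul_one, map_smul, hπ, smul_eq_mul, mul_one]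

theorem proj_smul_map_int (π : ℂ →ₗ[ℚ] ℚ) (c : ℂ) (p : PowerSeries ℤ) :
    proj π (c • PowerSeries.map (Int.castRingHom ℂ) p) =
      PowerSeries.C (π c) * PowerSeries.map (Int.castRingHom ℚ) p := by
  ext n
  simp only [coeff_proj, PowerSeries.coeff_smul, PowerSeries.coeff_map, PowerSeries.coeff_C_mul,
    eq_intCast, smul_eq_mul]
  rw [mul_comm, ← zsmul_eq_mul, map_zsmul, zsmul_eq_mul, mul_comm]

/-- A power series over `ℚ` has bounded denominators. -/
def BddDen (Q : PowerSeries ℚ) : Prop :=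
  ∃ e : ℤ, e ≠ 0 ∧ ∃ p : PowerSeries ℤ,
    (e : PowerSeries ℚ) * Q = PowerSeries.map (Int.castRingHom ℚ) p

theorem intCast_ne_zero_Z {e : ℤ} (he : e ≠ 0) : (e : PowerSeries ℤ) ≠ 0 := by
  rw [← map_intCast (PowerSeries.C (R := ℤ))]
  exact (map_ne_zero_iff _ PowerSeries.C_injective).mpr (by simpa using he)

theorem intCast_ne_zero_Q {e : ℤ} (he : e ≠ 0) : (e : PowerSeries ℚ) ≠ 0 := by
  rw [← map_intCast (PowerSeries.C (R := ℚ))]
  exact (map_ne_zero_iff _ PowerSeries.C_injective).mpr (by simpa using he)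

theorem map_int_injective :
    Function.Injective (PowerSeries.map (Int.castRingHom ℚ)) := by
  intro p q h
  ext n
  have := congrArg (PowerSeries.coeff n) h
  simpa using this

theorem bddDen_zero : BddDen 0 :=
  ⟨1, one_ne_zero, 0, by simp⟩

theorem bddDen_add {P Q : PowerSeries ℚ} (hP : BddDen P) (hQ : BddDen Q) : BddDen (P + Q) := by
  obtain ⟨e₁, he₁, p₁, hp₁⟩ := hP
  obtain ⟨e₂, he₂, p₂, hp₂⟩ := hQ
  refine ⟨e₁ * e₂, mul_ne_zero he₁ he₂,
    (e₂ : PowerSeries ℤ) * p₁ + (e₁ : PowerSeries ℤ) * p₂, ?_⟩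
  rw [map_add, map_mul, map_mul, map_intCast, map_intCast, ← hp₁, ← hp₂]
  push_cast
  ring

theorem bddDen_C_mul_map (r : ℚ) (p : PowerSeries ℤ) :
    BddDen (PowerSeries.C r * PowerSeries.map (Int.castRingHom ℚ) p) := by
  refine ⟨(r.den : ℤ), by exact_mod_cast r.den_nz, (r.num : PowerSeries ℤ) * p, ?_⟩
  rw [map_mul, map_intCast, ← map_intCast (PowerSeries.C (R := ℚ)),
    ← map_intCast (PowerSeries.C (R := ℚ)), ← mul_assoc, ← map_mul]
  congr 2
  push_cast
  exact Rat.den_mul_eq_num r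

/-- The projection of an element of the `ℂ`-span of the integral series has bounded
denominators. -/
theorem bddDen_proj (π : ℂ →ₗ[ℚ] ℚ) {P : PowerSeries ℂ}
    (hP : P ∈ Submodule.span ℂ spanIntSet) : BddDen (proj π P) := by
  induction hP using Submodule.closure_induction with
  | zero => rw [proj_zero]; exact bddDen_zero
  | add x y _ _ hx hy => rw [proj_add]; exact bddDen_add hx hy
  | smul_mem r x hx =>
    obtain ⟨p, rfl⟩ := (isIntSeries_iff x).mp hx
    rw [proj_smul_map_int]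
    exact bddDen_C_mul_map _ _

/-- Common denominator for finitely many series with bounded denominators. -/
theorem bddDen_common {n : ℕ} (Q : Fin n → PowerSeries ℚ) (h : ∀ s, BddDen (Q s)) :
    ∃ e : ℤ, e ≠ 0 ∧ ∀ s, ∃ p : PowerSeries ℤ,
      (e : PowerSeries ℚ) * Q s = PowerSeries.map (Int.castRingHom ℚ) p := by
  choose e he p hp using h
  refine ⟨∏ s, e s, Finset.prod_ne_zero_iff.mpr fun s _ => he s, fun s => ?_⟩
  refine ⟨((∏ t ∈ Finset.univ.erase s, e t : ℤ) : PowerSeries ℤ) * p s, ?_⟩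
  rw [← Finset.mul_prod_erase Finset.univ e (Finset.mem_univ s), map_mul, map_intCast, ← hp s]
  push_cast
  ring

/-- A `ℚ`-linear functional on `ℂ` taking the value `1` at a given nonzero element. -/
theorem exists_functional (u : ℂ) (hu : u ≠ 0) : ∃ π : ℂ →ₗ[ℚ] ℚ, π u = 1 :=
  Module.Projective.exists_dual_eq_one ℚ hu

/-- Step (ii): `xq` is a quotient of two integral power series. -/
theorem exists_fraction (xq : PowerSeries ℚ) (d : PowerSeries ℂ)
    (hd : d ∈ Submodule.span ℂ spanIntSet) (hd0 : d ≠ 0)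
    (hdx : d * PowerSeries.map (algebraMap ℚ ℂ) xq ∈ Submodule.span ℂ spanIntSet) :
    ∃ b a' : PowerSeries ℤ, b ≠ 0 ∧
      PowerSeries.map (Int.castRingHom ℚ) b * xq = PowerSeries.map (Int.castRingHom ℚ) a' := by
  obtain ⟨n₀, hn₀⟩ : ∃ n, PowerSeries.coeff n d ≠ 0 := by
    by_contra h
    simp only [not_exists, not_not] at h
    exact hd0 (PowerSeries.ext (by simpa using h))
  obtain ⟨π, hπ⟩ := exists_functional _ hn₀
  obtain ⟨e₁, he₁, b, hb⟩ := bddDen_proj π hd
  obtain ⟨e₂, he₂, a', ha'⟩ := bddDen_proj π hdx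
  rw [proj_mul_map] at ha'
  have hB : proj π d ≠ 0 := fun h => by
    have := congrArg (PowerSeries.coeff n₀) h
    simp [coeff_proj, hπ] at this
  refine ⟨(e₂ : PowerSeries ℤ) * b, (e₁ : PowerSeries ℤ) * a', ?_, ?_⟩
  · refine mul_ne_zero (intCast_ne_zero_Z he₂) ?_
    rintro rfl
    rw [map_zero] at hb
    exact (mul_ne_zero (intCast_ne_zero_Q he₁) hB) hb
  · rw [map_mul, map_mul, map_intCast, map_intCast, ← hb, ← ha']
    ring

/-- Step (iii): an integer multiple of `xq` is a root of a monic polynomial over `ℤ⟦X⟧`. -/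
theorem exists_monic (xq : PowerSeries ℚ) (n : ℕ) (a : Fin n → PowerSeries ℂ)
    (ha : ∀ s, a s ∈ Submodule.span ℂ spanIntSet)
    (hrel : (PowerSeries.map (algebraMap ℚ ℂ) xq) ^ n +
      ∑ s : Fin n, a s * (PowerSeries.map (algebraMap ℚ ℂ) xq) ^ (n - 1 - (s : ℕ)) = 0) :
    ∃ e : ℤ, e ≠ 0 ∧ ∃ p : Polynomial (PowerSeries ℤ), p.Monic ∧
      p.eval₂ (PowerSeries.map (Int.castRingHom ℚ)) ((e : PowerSeries ℚ) * xq) = 0 := by
  obtain ⟨π, hπ⟩ := exists_functional (1 : ℂ) one_ne_zero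
  have h1 : xq ^ n + ∑ s : Fin n, proj π (a s) * xq ^ (n - 1 - (s : ℕ)) = 0 := by
    have := congrArg (proj π) hrel
    rw [proj_add, proj_zero, proj_sum] at this
    simp only [← map_pow, proj_mul_map, proj_map π hπ] at this
    exact this
  obtain ⟨e, he, hp⟩ := bddDen_common (fun s => proj π (a s)) (fun s => bddDen_proj π (ha s))
  choose c hc using hp
  refine ⟨e, he, Polynomial.X ^ n + ∑ s : Fin n,
    Polynomial.C ((e : PowerSeries ℤ) ^ (s : ℕ) * c s) * Polynomial.X ^ (n - 1 - (s : ℕ)), ?_, ?_⟩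
  · apply Polynomial.monic_X_pow_add
    refine Polynomial.mem_degreeLT.mp (Submodule.sum_mem _ fun s _ => Polynomial.mem_degreeLT.mpr ?_)
    refine lt_of_le_of_lt (Polynomial.degree_C_mul_X_pow_le _ _) ?_
    have := s.isLt
    exact_mod_cast (by omega : n - 1 - (s : ℕ) < n)
  · simp only [Polynomial.eval₂_add, Polynomial.eval₂_pow, Polynomial.eval₂_X,
      Polynomial.eval₂_finsetSum, Polynomial.eval₂_mul, Polynomial.eval₂_C]
    simp only [map_mul, map_pow, map_intCast, ← hc]
    have key : ∀ s : Fin n, (e : PowerSeries ℚ) ^ (s : ℕ) * ((e : PowerSeries ℚ) * proj π (a s)) *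
        ((e : PowerSeries ℚ) * xq) ^ (n - 1 - (s : ℕ)) =
        (e : PowerSeries ℚ) ^ n * (proj π (a s) * xq ^ (n - 1 - (s : ℕ))) := by
      intro s
      have hs : (s : ℕ) + 1 + (n - 1 - (s : ℕ)) = n := by
        have := s.isLt
        omega
      calc (e : PowerSeries ℚ) ^ (s : ℕ) * ((e : PowerSeries ℚ) * proj π (a s)) *
            ((e : PowerSeries ℚ) * xq) ^ (n - 1 - (s : ℕ))
          = (e : PowerSeries ℚ) ^ ((s : ℕ) + 1 + (n - 1 - (s : ℕ))) *
            (proj π (a s) * xq ^ (n - 1 - (s : ℕ))) := by ring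
        _ = _ := by rw [hs]
    rw [Finset.sum_congr rfl fun s _ => key s, mul_pow, ← Finset.mul_sum, ← mul_add, h1, mul_zero]

/-- Step (iv): `ℤ⟦X⟧` is integrally closed. If `y : ℚ⟦X⟧` is a quotient of two integral series
and is integral over `ℤ⟦X⟧`, then `y` is integral. -/
theorem exists_int_of_integral (y : PowerSeries ℚ) (b a' : PowerSeries ℤ) (hb : b ≠ 0)
    (hy : PowerSeries.map (Int.castRingHom ℚ) b * y = PowerSeries.map (Int.castRingHom ℚ) a')
    (p : Polynomial (PowerSeries ℤ)) (hp : p.Monic)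
    (hpy : p.eval₂ (PowerSeries.map (Int.castRingHom ℚ)) y = 0) :
    ∃ z : PowerSeries ℤ, y = PowerSeries.map (Int.castRingHom ℚ) z := by
  let K := FractionRing (PowerSeries ℤ)
  let L := FractionRing (PowerSeries ℚ)
  let g : PowerSeries ℤ →+* L :=
    (algebraMap (PowerSeries ℚ) L).comp (PowerSeries.map (Int.castRingHom ℚ))
  have hg : Function.Injective g :=
    (IsFractionRing.injective (PowerSeries ℚ) L).comp map_int_injective
  let φ : K →+* L := IsFractionRing.lift hg
  have hφ : ∀ r : PowerSeries ℤ, φ (algebraMap (PowerSeries ℤ) K r) = g r :=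
    fun r => IsFractionRing.lift_algebraMap hg r
  have hbK : algebraMap (PowerSeries ℤ) K b ≠ 0 :=
    (map_ne_zero_iff _ (IsFractionRing.injective (PowerSeries ℤ) K)).mpr hb
  have hgb : g b ≠ 0 := (map_ne_zero_iff _ hg).mpr hb
  let w : K := algebraMap (PowerSeries ℤ) K a' / algebraMap (PowerSeries ℤ) K b
  have hφw : φ w = algebraMap (PowerSeries ℚ) L y := by
    have : g b * algebraMap (PowerSeries ℚ) L y = g a' := by
      simp only [g, RingHom.comp_apply, ← map_mul, hy]
    simp only [w, map_div₀, hφ]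
    rw [div_eq_iff hgb, mul_comm, this]
  have hw : p.eval₂ (algebraMap (PowerSeries ℤ) K) w = 0 := by
    apply φ.injective
    rw [Polynomial.hom_eval₂, map_zero, hφw]
    have hcomp : φ.comp (algebraMap (PowerSeries ℤ) K) = g := RingHom.ext hφ
    rw [hcomp]
    simp only [g]
    rw [← Polynomial.hom_eval₂, hpy, map_zero]
  have hint : IsIntegral (PowerSeries ℤ) w := ⟨p, hp, hw⟩
  obtain ⟨z, hz⟩ := IsIntegrallyClosed.isIntegral_iff.mp hint
  refine ⟨z, ?_⟩
  have h2 : z * b = a' := by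
    apply IsFractionRing.injective (PowerSeries ℤ) K
    rw [map_mul, hz]
    simp only [w]
    rw [div_mul_cancel₀ _ hbK]
  have hbQ : PowerSeries.map (Int.castRingHom ℚ) b ≠ 0 :=
    (map_ne_zero_iff _ map_int_injective).mpr hb
  apply mul_left_cancel₀ hbQ
  rw [hy, ← h2, map_mul, mul_comm]

end IntClosedAux

open IntClosedAux in
/-- Every element of `spanInt` is a finite `ℂ`-linear combination of integral power series. -/
theorem mem_spanInt_iff (P : PowerSeries ℂ) :
    P ∈ spanInt ↔ P ∈ Submodule.span ℂ spanIntSet := by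
  have h : (Submonoid.closure spanIntSet : Set (PowerSeries ℂ)) = spanIntSet := by
    rw [spanIntSet_eq]
    exact congrArg _ (Submonoid.closure_eq
      (PowerSeries.map (Int.castRingHom ℂ)).rangeS.toSubmonoid)
  rw [spanInt, ← Subalgebra.mem_toSubmodule, Algebra.adjoin_eq_span, h]

open IntClosedAux in
/-- Let `x ∈ ℂ⟦X⟧` have rational coefficients, and assume `d * x ∈ spanInt` for some nonzero
`d ∈ spanInt` and that `x` satisfies a monic polynomial equation with coefficients in `spanInt`.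
Then some nonzero integer multiple of `x` has integer coefficients. -/
theorem bounded_denominators_of_integral (x : PowerSeries ℂ) (hx : IsRatSeries x)
    (d : PowerSeries ℂ) (hd : d ∈ spanInt) (hd0 : d ≠ 0) (hdx : d * x ∈ spanInt)
    (n : ℕ) (a : Fin n → PowerSeries ℂ) (ha : ∀ s, a s ∈ spanInt)
    (hrel : x ^ n + ∑ s : Fin n, a s * x ^ (n - 1 - (s : ℕ)) = 0) :
    ∃ c : ℤ, c ≠ 0 ∧ IsIntSeries ((c : ℂ) • x) := by
  obtain ⟨xq, rfl⟩ := exists_rat_series x hx
  obtain ⟨b, a', hb, hba⟩ := exists_fraction xq d ((mem_spanInt_iff d).mp hd) hd0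
    ((mem_spanInt_iff _).mp hdx)
  obtain ⟨e, he, p, hp, hpy⟩ := exists_monic xq n a (fun s => (mem_spanInt_iff _).mp (ha s)) hrel
  obtain ⟨z, hz⟩ := exists_int_of_integral ((e : PowerSeries ℚ) * xq) b
    ((e : PowerSeries ℤ) * a') hb (by rw [map_mul, map_intCast, ← hba]; ring) p hp hpy
  refine ⟨e, he, fun m => ⟨PowerSeries.coeff m z, ?_⟩⟩
  have h1 := congrArg (PowerSeries.coeff m) hz
  rw [← map_intCast (PowerSeries.C (R := ℚ)), PowerSeries.coeff_C_mul, PowerSeries.coeff_map,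
    eq_intCast] at h1
  rw [PowerSeries.coeff_smul, PowerSeries.coeff_map, smul_eq_mul]
  have h2 := congrArg (algebraMap ℚ ℂ) h1
  simpa using h2

end Fermat.Agent.S23
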