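import Fermat.Agent.S23.Nice
import Fermat.Agent.S23.Esymm
import Fermat.Agent.S23.LevelOne
import Fermat.Agent.S23.AlgData
import Fermat.Agent.S23.IntClosed

/-!
# S23 / WP-K: cusp forms with rational `q`-expansion have bounded denominators

Let `f` be a cusp form of level `Γ₀(N)` with rational `q`-expansion `x`. By `exists_alg_data`
there are a primitive element `t` and level-one forms `m i j`, `b j` with
`det(M) * f = ∑ j, t ^ j * (adj(M) b)_j` and `det(M) ≠ 0`; by `exists_charpoly_coeff`, `f` is a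
root of a monic polynomial whose coefficients are level-one forms. Transporting these identities
to `q`-expansions (through the commutative ring `niceAlg` and the injective algebra hom `qExp`),
all the coefficients land in the subalgebra `spanInt` of `ℂ⟦X⟧` (`levelOne_mem_spanInt`), and
`bounded_denominators_of_integral` gives the claim.
-/

set_option autoImplicit false

open UpperHalfPlane ModularForm CongruenceSubgroup
open scoped MatrixGroups ModularForm Manifold

namespace Fermat.Agent.S23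

namespace BoundedAux

/-- A ring homomorphism commutes with the "Cramer expression"
`∑ j, T ^ e j * (adj(M) b)_j`. -/
theorem map_cramer {R S : Type*} [CommRing R] [CommRing S] {n : Type*} [Fintype n]
    [DecidableEq n] (φ : R →+* S) (T : R) (e : n → ℕ) (M : Matrix n n R) (b : n → R) :
    φ (∑ j, T ^ e j * (M.adjugate.mulVec b) j) =
      ∑ j, φ T ^ e j * ((φ.mapMatrix M).adjugate.mulVec (φ ∘ b)) j := by
  rw [map_sum]
  refine Finset.sum_congr rfl fun j _ => ?_
  rw [map_mul, map_pow, RingHom.map_mulVec, ← RingHom.mapMatrix_apply, RingHom.map_adjugate]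

/-- The determinant of a matrix with entries in a subalgebra lies in the subalgebra. -/
theorem det_mem_subalgebra {K A : Type*} [CommRing K] [CommRing A] [Algebra K A]
    (S : Subalgebra K A) {n : Type*} [Fintype n] [DecidableEq n]
    (M : Matrix n n A) (hM : ∀ i j, M i j ∈ S) : M.det ∈ S := by
  have hM' : M = (S.val : S →+* A).mapMatrix (Matrix.of fun i j => (⟨M i j, hM i j⟩ : S)) := by
    ext i j; rfl
  rw [hM', ← RingHom.map_det]
  exact SetLike.coe_mem _

/-- The "Cramer expression" `∑ j, T ^ e j * (adj(M) b)_j` of data in a subalgebra lies in the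
subalgebra. -/
theorem cramer_mem_subalgebra {K A : Type*} [CommRing K] [CommRing A] [Algebra K A]
    (S : Subalgebra K A) {n : Type*} [Fintype n] [DecidableEq n]
    (T : A) (hT : T ∈ S) (e : n → ℕ)
    (M : Matrix n n A) (hM : ∀ i j, M i j ∈ S) (b : n → A) (hb : ∀ j, b j ∈ S) :
    ∑ j, T ^ e j * (M.adjugate.mulVec b) j ∈ S := by
  have hM' : M = (S.val : S →+* A).mapMatrix (Matrix.of fun i j => (⟨M i j, hM i j⟩ : S)) := by
    ext i j; rfl
  have hb' : b = (S.val : S →+* A) ∘ (fun j => (⟨b j, hb j⟩ : S)) := by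
    ext j; rfl
  have hT' : T = (S.val : S →+* A) ⟨T, hT⟩ := rfl
  rw [hM', hb', hT', ← map_cramer]
  exact SetLike.coe_mem _

/-- Two nice functions agreeing at every point are equal. -/
theorem ext_of_evalAt {F G : niceAlg}
    (h : ∀ z : ℍ, (evalAt z : niceAlg →+* ℂ) F = (evalAt z : niceAlg →+* ℂ) G) : F = G := by
  refine Subtype.ext (funext fun z => ?_)
  rw [← evalAt_apply z F, ← evalAt_apply z G]
  exact h z

theorem evalAt_ofL1 (z : ℍ) {k : ℤ} (g : ModularForm 𝒮ℒ k) :
    (evalAt z : niceAlg →+* ℂ) (ofL1 g) = g z :=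
  (evalAt_apply z (ofL1 g)).trans (congrFun (coe_ofL1 g) z)

theorem evalAt_ofMF (z : ℍ) {N : ℕ} [NeZero N] {k : ℤ} (g : ModularForm (Gam N) k) :
    (evalAt z : niceAlg →+* ℂ) (ofMF g) = g z :=
  (evalAt_apply z (ofMF g)).trans (congrFun (coe_ofMF g) z)

theorem evalAt_ofCF (z : ℍ) {N : ℕ} [NeZero N] {k : ℤ} (g : CuspForm (Gam N) k) :
    (evalAt z : niceAlg →+* ℂ) (ofCF g) = g z :=
  (evalAt_apply z (ofCF g)).trans (congrFun (coe_ofCF g) z)

theorem qExp_ofL1' {k : ℤ} (g : ModularForm 𝒮ℒ k) :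
    (qExp : niceAlg →+* PowerSeries ℂ) (ofL1 g) = qExpansion 1 g :=
  qExp_ofL1 g

theorem qExp_ofMF' {N : ℕ} [NeZero N] {k : ℤ} (g : ModularForm (Gam N) k) :
    (qExp : niceAlg →+* PowerSeries ℂ) (ofMF g) = qExpansion 1 g :=
  qExp_ofMF g

theorem qExp_ofCF' {N : ℕ} [NeZero N] {k : ℤ} (g : CuspForm (Gam N) k) :
    (qExp : niceAlg →+* PowerSeries ℂ) (ofCF g) = qExpansion 1 g :=
  qExp_ofCF g

end BoundedAux

theorem cuspForm_bounded_denominators (N : ℕ) [NeZero N] (k : ℤ) (f : CuspForm (Gam N) k)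
    (hf : IsRatSeries (qExpansion 1 f)) :
    ∃ c : ℤ, c ≠ 0 ∧ IsIntSeries ((c : ℂ) • qExpansion 1 f) := by
  classical
  -- `f` as a modular form
  obtain ⟨fM, hfM⟩ : ∃ fM : ModularForm (Gam N) k, ∀ z : ℍ, fM z = f z :=
    ⟨ModularFormClass.modularForm f, fun _ => rfl⟩
  obtain ⟨t, m, b, ⟨c, hc0, hct⟩, ⟨z0, hz0⟩, hrel⟩ := exists_alg_data N k fM
  obtain ⟨a, ha, -⟩ := exists_charpoly_coeff fM
  -- the data as elements of the commutative ring `niceAlg`
  obtain ⟨T, hTz, hTq⟩ : ∃ T : niceAlg, (∀ z : ℍ, (evalAt z : niceAlg →+* ℂ) T = t z) ∧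
      (qExp : niceAlg →+* PowerSeries ℂ) T = qExpansion 1 t :=
    ⟨ofMF t, fun z => BoundedAux.evalAt_ofMF z t, BoundedAux.qExp_ofMF' t⟩
  obtain ⟨Fh, hFz, hFq⟩ : ∃ Fh : niceAlg, (∀ z : ℍ, (evalAt z : niceAlg →+* ℂ) Fh = fM z) ∧
      (qExp : niceAlg →+* PowerSeries ℂ) Fh = qExpansion 1 f :=
    ⟨ofCF f, fun z => (BoundedAux.evalAt_ofCF z f).trans (hfM z).symm,
      BoundedAux.qExp_ofCF' f⟩
  obtain ⟨Mh, hMz, hMq⟩ : ∃ Mh : Matrix (Fin (psi N)) (Fin (psi N)) niceAlg,
      (∀ z : ℍ, (evalAt z : niceAlg →+* ℂ).mapMatrix Mh = Matrix.of fun i j => m i j z) ∧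
      (∀ i j, ((qExp : niceAlg →+* PowerSeries ℂ).mapMatrix Mh) i j ∈ spanInt) := by
    refine ⟨Matrix.of fun i j => ofL1 (m i j), fun z => ?_, fun i j => ?_⟩
    · ext i j
      exact BoundedAux.evalAt_ofL1 z (m i j)
    · have h : ((qExp : niceAlg →+* PowerSeries ℂ).mapMatrix
          (Matrix.of fun i j => ofL1 (m i j))) i j = qExpansion 1 (m i j) :=
        BoundedAux.qExp_ofL1' (m i j)
      rw [h]
      exact levelOne_mem_spanInt _ (m i j)
  obtain ⟨bh, hbz, hbq⟩ : ∃ bh : Fin (psi N) → niceAlg,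
      (∀ z : ℍ, (evalAt z : niceAlg →+* ℂ) ∘ bh = fun j => b j z) ∧
      (∀ j, ((qExp : niceAlg →+* PowerSeries ℂ) ∘ bh) j ∈ spanInt) := by
    refine ⟨fun j => ofL1 (b j), fun z => ?_, fun j => ?_⟩
    · ext j
      exact BoundedAux.evalAt_ofL1 z (b j)
    · have h : ((qExp : niceAlg →+* PowerSeries ℂ) ∘ fun j => ofL1 (b j)) j =
          qExpansion 1 (b j) := BoundedAux.qExp_ofL1' (b j)
      rw [h]
      exact levelOne_mem_spanInt _ (b j)
  obtain ⟨ah, haz, haq⟩ : ∃ ah : Fin (psi N) → niceAlg,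
      (∀ (z : ℍ) (s : Fin (psi N)), (evalAt z : niceAlg →+* ℂ) (ah s) = a s z) ∧
      (∀ s, (qExp : niceAlg →+* PowerSeries ℂ) (ah s) = qExpansion 1 (a s)) :=
    ⟨fun s => ofL1 (a s), fun z s => BoundedAux.evalAt_ofL1 z (a s),
      fun s => BoundedAux.qExp_ofL1' (a s)⟩
  -- the identities in `niceAlg`
  have h1 : Mh.det * Fh = ∑ j : Fin (psi N), T ^ (j : ℕ) * (Mh.adjugate.mulVec bh) j := by
    refine BoundedAux.ext_of_evalAt fun z => ?_
    rw [BoundedAux.map_cramer, map_mul, RingHom.map_det, hMz, hbz, hFz, hTz]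
    exact hrel z
  have h2 : Fh ^ psi N + ∑ s : Fin (psi N), ah s * Fh ^ (psi N - 1 - (s : ℕ)) = 0 := by
    refine BoundedAux.ext_of_evalAt fun z => ?_
    rw [map_add, map_pow, map_sum, map_zero]
    simp only [map_mul, map_pow, hFz, haz]
    exact ha z
  have h3 : Mh.det ≠ 0 := by
    intro h0
    apply hz0
    have h := congrArg (evalAt z0 : niceAlg →+* ℂ) h0
    rw [RingHom.map_det, hMz, map_zero] at h
    exact h
  -- `qExp T ∈ spanInt`
  have hTmem : (qExp : niceAlg →+* PowerSeries ℂ) T ∈ spanInt := by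
    have hcC : (c : ℂ) ≠ 0 := Int.cast_ne_zero.mpr hc0
    have hmem : (c : ℂ) • qExpansion 1 t ∈ spanInt := Algebra.subset_adjoin hct
    have heq : (qExp : niceAlg →+* PowerSeries ℂ) T =
        (c : ℂ)⁻¹ • ((c : ℂ) • qExpansion 1 t) := by
      rw [inv_smul_smul₀ hcC, hTq]
    rw [heq]
    exact Subalgebra.smul_mem _ hmem _
  -- conclusion
  refine bounded_denominators_of_integral (qExpansion 1 f) hf
    ((qExp : niceAlg →+* PowerSeries ℂ) Mh.det) ?_ ?_ ?_ (psi N)
    (fun s => qExpansion 1 (a s)) ?_ ?_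
  · rw [RingHom.map_det]
    exact BoundedAux.det_mem_subalgebra spanInt _ hMq
  · intro h0
    refine h3 (qExp_injective ?_)
    rw [map_zero]
    exact h0
  · rw [← hFq, ← map_mul, h1, BoundedAux.map_cramer]
    exact BoundedAux.cramer_mem_subalgebra spanInt _ hTmem _ _ hMq _ hbq
  · intro s
    exact levelOne_mem_spanInt _ (a s)
  · have h4 := congrArg (qExp : niceAlg →+* PowerSeries ℂ) h2
    rw [map_add, map_pow, map_sum, map_zero] at h4
    simp only [map_mul, map_pow, hFq, haq] at h4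
    exact h4

end Fermat.Agent.S23
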