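import Fermat.Agent.S23.RatSpan
import Fermat.Agent.S23.Bounded

/-!
# S23: `S_k(Γ₀(N))` is spanned by cusp forms with integral `q`-expansion (all weights `k`)
-/

set_option autoImplicit false

open UpperHalfPlane ModularForm CongruenceSubgroup
open scoped MatrixGroups ModularForm Manifold

namespace Fermat.Agent.S23

/-- Main theorem: for every level `N ≥ 1` and every weight `k`, the space of cusp forms
`S_k(Γ₀(N))` is spanned over `ℂ` by the forms with integral `q`-expansion. -/
theorem hasIntegralStructure (N : ℕ) [NeZero N] (k : ℤ) : CuspForm.HasIntegralStructure N k := by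
  unfold CuspForm.HasIntegralStructure
  rw [eq_top_iff]
  change (⊤ : Submodule ℂ (CuspForm (Gam N) k)) ≤ _
  rw [← cuspForm_span_rat N k, Submodule.span_le]
  intro f hf
  obtain ⟨c, hc0, hc⟩ := cuspForm_bounded_denominators N k f hf
  have hcC : (c : ℂ) ≠ 0 := Int.cast_ne_zero.mpr hc0
  have hg : ((c : ℂ) • f) ∈ (CuspForm.intLattice N k : Set (CuspForm (Gam N) k)) := by
    refine Submodule.subset_span ?_
    intro n
    obtain ⟨m, hm⟩ := hc n
    refine ⟨m, ?_⟩
    rw [← hm]
    have hq : qExpansion 1 (((c : ℂ) • f : CuspForm (Gam N) k) : ℍ → ℂ) =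
        (c : ℂ) • qExpansion 1 (f : ℍ → ℂ) :=
      UpperHalfPlane.qExpansion_smul (isNice_cuspForm f).analyticAt (c : ℂ)
    unfold ModularFormClass.qCoeff
    rw [hq]
  have hfeq : f = (c : ℂ)⁻¹ • ((c : ℂ) • f) := by rw [inv_smul_smul₀ hcC]
  rw [hfeq]
  exact Submodule.smul_mem _ _ (Submodule.subset_span hg)

end Fermat.Agent.S23
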