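import Fermat.Agent.S23.FixedField

/-!
# S23 / WP-J2: Galois descent for subspaces of `ℂⁿ`

A subspace `W` of `ℂⁿ` which is stable under the coordinatewise action of every ring automorphism
of `ℂ` is spanned by its vectors with rational coordinates.

The proof is the classical "minimal support" argument: among the nonzero vectors of `W` whose
support is contained in the support of a given `w ∈ W`, one of minimal support, normalised to have
a coordinate equal to `1`, is fixed by every automorphism, hence has rational coordinates (the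
fixed field of `Aut(ℂ)` being `ℚ`).  Subtracting a multiple of it from `w` shrinks the support of
`w`, and we conclude by strong induction on the size of the support.
-/

set_option autoImplicit false

namespace Fermat.Agent.S23

namespace DescentAux

/-- The support of a vector of `ℂⁿ`: the set of indices of its nonzero coordinates. -/
noncomputable def supp {n : ℕ} (w : Fin n → ℂ) : Finset (Fin n) :=
  Finset.univ.filter (fun i => w i ≠ 0)

theorem mem_supp {n : ℕ} (w : Fin n → ℂ) (i : Fin n) : i ∈ supp w ↔ w i ≠ 0 := by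
  simp [supp]

/-- If `v` vanishes wherever `u` vanishes, and moreover `v` vanishes at an index `j` where `u`
does not, then the support of `v` is strictly smaller than the support of `u`. -/
theorem card_supp_lt {n : ℕ} (u v : Fin n → ℂ) (j : Fin n) (huj : u j ≠ 0) (hvj : v j = 0)
    (hsub : ∀ i, u i = 0 → v i = 0) : (supp v).card < (supp u).card := by
  apply Finset.card_lt_card
  rw [Finset.ssubset_iff_of_subset]
  · exact ⟨j, (mem_supp u j).2 huj, fun h => (mem_supp v j).1 h hvj⟩
  · intro i hi
    rw [mem_supp] at hi ⊢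
    exact fun h => hi (hsub i h)

/-- Key step of the descent: if `w` is a nonzero vector of a stable subspace `W`, then `W` contains
a vector `u` with rational coordinates, supported inside the support of `w`, and with a
coordinate `u j = 1` at some index `j` of the support of `w`. -/
theorem exists_rat_vector {n : ℕ} (W : Submodule ℂ (Fin n → ℂ))
    (hW : ∀ σ : ℂ ≃+* ℂ, ∀ w ∈ W, (fun i => σ (w i)) ∈ W)
    (w : Fin n → ℂ) (hw : w ∈ W) (hw0 : w ≠ 0) :
    ∃ u ∈ W, ∃ j, u j = 1 ∧ w j ≠ 0 ∧ (∀ i, w i = 0 → u i = 0) ∧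
      ∀ i, ∃ r : ℚ, u i = (r : ℂ) := by
  classical
  -- a nonzero element `u` of `W`, supported in the support of `w`, with support of minimal size
  have hP : ∃ m : ℕ, ∃ u ∈ W, u ≠ 0 ∧ (∀ i, w i = 0 → u i = 0) ∧ (supp u).card = m :=
    ⟨(supp w).card, w, hw, hw0, fun _ hi => hi, rfl⟩
  obtain ⟨u, huW, hu0, husub, hucard⟩ := Nat.find_spec hP
  have hmin : ∀ v ∈ W, v ≠ 0 → (∀ i, w i = 0 → v i = 0) → (supp u).card ≤ (supp v).card := by
    intro v hvW hv0 hvsub
    rw [hucard]
    exact Nat.find_min' hP ⟨v, hvW, hv0, hvsub, rfl⟩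
  -- pick an index `j` in the support of `u`
  obtain ⟨j, hj⟩ : ∃ j, u j ≠ 0 := by
    by_contra h
    apply hu0
    funext i
    by_contra hi
    exact h ⟨i, hi⟩
  -- normalise `u` at `j`
  have hu'W : (u j)⁻¹ • u ∈ W := W.smul_mem _ huW
  have hu'j : ((u j)⁻¹ • u) j = 1 := by
    rw [Pi.smul_apply, smul_eq_mul, inv_mul_cancel₀ hj]
  have hu'sub : ∀ i, u i = 0 → ((u j)⁻¹ • u) i = 0 := by
    intro i hi
    rw [Pi.smul_apply, hi, smul_zero]
  have hwj : w j ≠ 0 := fun h => hj (husub j h)
  refine ⟨(u j)⁻¹ • u, hu'W, j, hu'j, hwj, fun i hi => hu'sub i (husub i hi), ?_⟩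
  -- the normalised vector is fixed by every automorphism, by minimality of the support
  have hfix : ∀ σ : ℂ ≃+* ℂ, ∀ i, σ (((u j)⁻¹ • u) i) = ((u j)⁻¹ • u) i := by
    intro σ
    have hvW : (fun i => σ (((u j)⁻¹ • u) i)) - (u j)⁻¹ • u ∈ W :=
      W.sub_mem (hW σ _ hu'W) hu'W
    have hvj : ((fun i => σ (((u j)⁻¹ • u) i)) - (u j)⁻¹ • u) j = 0 := by
      rw [Pi.sub_apply, hu'j, map_one, sub_self]
    have hvsub : ∀ i, u i = 0 → ((fun i => σ (((u j)⁻¹ • u) i)) - (u j)⁻¹ • u) i = 0 := by
      intro i hi
      rw [Pi.sub_apply, hu'sub i hi, map_zero, sub_self]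
    have hv0 : (fun i => σ (((u j)⁻¹ • u) i)) - (u j)⁻¹ • u = 0 := by
      by_contra hv0
      have h1 := hmin _ hvW hv0 (fun i hi => hvsub i (husub i hi))
      have h2 := card_supp_lt u _ j hj hvj hvsub
      exact absurd h2 (not_lt.mpr h1)
    intro i
    have h := congrFun hv0 i
    rw [Pi.sub_apply, Pi.zero_apply, sub_eq_zero] at h
    exact h
  intro i
  exact exists_rat_of_fixed _ (fun σ => hfix σ i)

end DescentAux

/-- A subspace of `ℂⁿ` stable under all coordinatewise ring automorphisms of `ℂ` is spanned by its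
vectors with rational coordinates. -/
theorem span_rat_of_stable (n : ℕ) (W : Submodule ℂ (Fin n → ℂ))
    (hW : ∀ σ : ℂ ≃+* ℂ, ∀ w ∈ W, (fun i => σ (w i)) ∈ W) :
    W ≤ Submodule.span ℂ {w | w ∈ W ∧ ∀ i, ∃ r : ℚ, w i = (r : ℂ)} := by
  classical
  -- strong induction on the size of the support
  have key : ∀ k : ℕ, ∀ w ∈ W, (DescentAux.supp w).card = k →
      w ∈ Submodule.span ℂ {w | w ∈ W ∧ ∀ i, ∃ r : ℚ, w i = (r : ℂ)} := by
    intro k
    induction k using Nat.strong_induction_on with
    | _ k ih =>
      intro w hw hk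
      by_cases hw0 : w = 0
      · rw [hw0]
        exact Submodule.zero_mem _
      · obtain ⟨u, huW, j, huj, hwj, husub, hurat⟩ :=
          DescentAux.exists_rat_vector W hW w hw hw0
        have hw'W : w - (w j) • u ∈ W := W.sub_mem hw (W.smul_mem _ huW)
        have hw'j : (w - (w j) • u) j = 0 := by
          rw [Pi.sub_apply, Pi.smul_apply, huj, smul_eq_mul, mul_one, sub_self]
        have hw'sub : ∀ i, w i = 0 → (w - (w j) • u) i = 0 := by
          intro i hi
          rw [Pi.sub_apply, Pi.smul_apply, husub i hi, hi, smul_zero, sub_self]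
        have hlt : (DescentAux.supp (w - (w j) • u)).card < k := by
          rw [← hk]
          exact DescentAux.card_supp_lt w _ j hwj hw'j hw'sub
        have h1 := ih _ hlt (w - (w j) • u) hw'W rfl
        have h2 : u ∈ Submodule.span ℂ {w | w ∈ W ∧ ∀ i, ∃ r : ℚ, w i = (r : ℂ)} :=
          Submodule.subset_span ⟨huW, hurat⟩
        have h3 : w = (w - (w j) • u) + (w j) • u := (sub_add_cancel w ((w j) • u)).symm
        rw [h3]
        exact Submodule.add_mem _ h1 (Submodule.smul_mem _ _ h2)
  intro w hw
  exact key _ w hw rfl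

end Fermat.Agent.S23
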