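import Mathlib

/-!
# S23 / WP-J1: the fixed field of `Aut(ℂ)` is `ℚ`

We show that a complex number fixed by every ring automorphism of `ℂ` is rational.

Strategy (contrapositive): for `x ∉ ℚ` we construct `σ : ℂ ≃+* ℂ` with `σ x ≠ x`.

* General tool (`FixedFieldAux.exists_ringEquiv_of_mvPolynomial`): if `v : ι → K` is a
  transcendence basis of an algebraically closed field `K` over a field `R`, then `K` is an
  algebraic closure of `Algebra.adjoin R (range v) ≃ MvPolynomial ι R`, hence every ring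
  automorphism of `MvPolynomial ι R` extends to a ring automorphism of `K`.
* If `x` is transcendental over `ℚ`, extend `{x}` to a transcendence basis and extend the
  translation automorphism `X_x ↦ X_x + 1`; the resulting `σ` satisfies `σ x = x + 1`.
* If `x` is algebraic over `ℚ` but irrational, then `x` lies in `A := algebraicClosure ℚ ℂ`,
  which is Galois over `ℚ`, so some `τ ∈ Gal(A/ℚ)` moves `x`; extend the automorphism of
  `MvPolynomial ι A` acting by `τ` on coefficients (for a transcendence basis of `ℂ` over `A`).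
-/

set_option autoImplicit false

namespace Fermat.Agent.S23

namespace FixedFieldAux

open MvPolynomial

/-- If `v` is a transcendence basis of the algebraically closed field `K` over the field `R`,
then every ring automorphism `φ` of the polynomial ring `MvPolynomial ι R` extends (through
evaluation at `v`) to a ring automorphism of `K`. -/
theorem exists_ringEquiv_of_mvPolynomial {R K ι : Type*} [Field R] [Field K] [Algebra R K]
    [IsAlgClosed K] (v : ι → K) (hv : IsTranscendenceBasis R v)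
    (φ : MvPolynomial ι R ≃+* MvPolynomial ι R) :
    ∃ σ : K ≃+* K, ∀ p : MvPolynomial ι R, σ (aeval v p) = aeval v (φ p) := by
  have := IsAlgClosed.isAlgClosure_of_transcendence_basis v hv
  let e : Algebra.adjoin R (Set.range v) ≃+* Algebra.adjoin R (Set.range v) :=
    hv.1.aevalEquiv.symm.toRingEquiv.trans (φ.trans hv.1.aevalEquiv.toRingEquiv)
  refine ⟨IsAlgClosure.equivOfEquiv K K e, fun p => ?_⟩
  have h1 : ∀ q : MvPolynomial ι R,
      aeval v q = algebraMap (Algebra.adjoin R (Set.range v)) K (hv.1.aevalEquiv q) :=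
    fun q => (hv.1.algebraMap_aevalEquiv q).symm
  rw [h1, h1, IsAlgClosure.equivOfEquiv_algebraMap]
  congr 1
  simp [e]

/-- The translation automorphism `X i ↦ X i + c i` of a polynomial ring. -/
noncomputable def shift {ι : Type*} (R : Type*) [CommRing R] (c : ι → R) :
    MvPolynomial ι R ≃ₐ[R] MvPolynomial ι R :=
  AlgEquiv.ofAlgHom (aeval fun i => X i + C (c i)) (aeval fun i => X i - C (c i))
    (by ext i; simp) (by ext i; simp)

theorem shift_X {ι : Type*} (R : Type*) [CommRing R] (c : ι → R) (i : ι) :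
    shift R c (X i) = X i + C (c i) := by
  simp [shift]

/-- A complex number which is transcendental over `ℚ` is moved by some ring automorphism
of `ℂ`. -/
theorem exists_of_transcendental (x : ℂ) (hx : Transcendental ℚ x) :
    ∃ σ : ℂ ≃+* ℂ, σ x ≠ x := by
  classical
  have hs : AlgebraicIndepOn ℚ id ({x} : Set ℂ) :=
    (algebraicIndependent_singleton_iff (⟨x, rfl⟩ : ({x} : Set ℂ))).mpr hx
  obtain ⟨t, hst, ht⟩ := exists_isTranscendenceBasis_superset hs
  let i₀ : t := ⟨x, hst rfl⟩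
  obtain ⟨σ, hσ⟩ := exists_ringEquiv_of_mvPolynomial ((↑) : t → ℂ) ht
    (shift ℚ (fun i : t => if i = i₀ then (1 : ℚ) else 0)).toRingEquiv
  refine ⟨σ, ?_⟩
  have h2 := hσ (X i₀)
  simp only [aeval_X] at h2
  have h3 : σ x = x + 1 := by
    have h4 : ((i₀ : t) : ℂ) = x := rfl
    rw [h4] at h2
    rw [h2]
    simp [shift_X, h4]
  rw [h3]
  simp

/-- A complex number which is algebraic over `ℚ` but not rational is moved by some ring
automorphism of `ℂ`. -/
theorem exists_of_algebraic (x : ℂ) (hx : IsAlgebraic ℚ x)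
    (hx' : x ∉ Set.range ((↑) : ℚ → ℂ)) : ∃ σ : ℂ ≃+* ℂ, σ x ≠ x := by
  have hxA : x ∈ algebraicClosure ℚ ℂ := mem_algebraicClosure_iff.mpr hx
  have hcl : IsAlgClosure ℚ (algebraicClosure ℚ ℂ) := algebraicClosure.isAlgClosure ℚ ℂ
  have hgal : IsGalois ℚ (algebraicClosure ℚ ℂ) :=
    IsAlgClosure.isGalois ℚ (algebraicClosure ℚ ℂ)
  have hτ : ∃ τ : algebraicClosure ℚ ℂ ≃ₐ[ℚ] algebraicClosure ℚ ℂ,
      τ ⟨x, hxA⟩ ≠ (⟨x, hxA⟩ : algebraicClosure ℚ ℂ) := by
    by_contra hcon
    have hcon' : ∀ τ : algebraicClosure ℚ ℂ ≃ₐ[ℚ] algebraicClosure ℚ ℂ,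
        τ ⟨x, hxA⟩ = (⟨x, hxA⟩ : algebraicClosure ℚ ℂ) := by
      intro τ
      by_contra hne
      exact hcon ⟨τ, hne⟩
    obtain ⟨r, hr⟩ := (InfiniteGalois.mem_range_algebraMap_iff_fixed
      (k := ℚ) (K := algebraicClosure ℚ ℂ) ⟨x, hxA⟩).mpr hcon'
    apply hx'
    refine ⟨r, ?_⟩
    have h4 := congrArg (fun a : algebraicClosure ℚ ℂ => (a : ℂ)) hr
    simpa using h4
  obtain ⟨τ, hτ⟩ := hτ
  obtain ⟨ι, v, hv⟩ := exists_isTranscendenceBasis' (algebraicClosure ℚ ℂ) ℂ
  obtain ⟨σ, hσ⟩ :=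
    exists_ringEquiv_of_mvPolynomial v hv (MvPolynomial.mapEquiv ι τ.toRingEquiv)
  refine ⟨σ, ?_⟩
  have h2 := hσ (C ⟨x, hxA⟩)
  have h3 : σ x = ((τ ⟨x, hxA⟩ : algebraicClosure ℚ ℂ) : ℂ) := by
    have h5 : (aeval v) (C (⟨x, hxA⟩ : algebraicClosure ℚ ℂ)) = x := by
      rw [aeval_C]; rfl
    rw [h5] at h2
    rw [h2]
    have h6 : (mapEquiv ι τ.toRingEquiv) (C (⟨x, hxA⟩ : algebraicClosure ℚ ℂ))
        = C (τ ⟨x, hxA⟩) := by
      simp
    rw [h6, aeval_C]
    rfl
  rw [h3]
  intro hcon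
  apply hτ
  exact Subtype.ext hcon

end FixedFieldAux

/-- A complex number fixed by all ring automorphisms of `ℂ` is rational. -/
theorem exists_rat_of_fixed (x : ℂ) (h : ∀ σ : ℂ ≃+* ℂ, σ x = x) : ∃ r : ℚ, x = (r : ℂ) := by
  by_contra hne
  have hx' : x ∉ Set.range ((↑) : ℚ → ℂ) := fun ⟨r, hr⟩ => hne ⟨r, hr.symm⟩
  by_cases hx : IsAlgebraic ℚ x
  · obtain ⟨σ, hσ⟩ := FixedFieldAux.exists_of_algebraic x hx hx'
    exact hσ (h σ)
  · obtain ⟨σ, hσ⟩ := FixedFieldAux.exists_of_transcendental x hx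
    exact hσ (h σ)

end Fermat.Agent.S23
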