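import Fermat.Agent.S23.Nice
import Fermat.Agent.S23.Esymm
import Fermat.Agent.S23.LevelOne
import Fermat.Agent.S23.AlgData
import Fermat.Agent.S23.Division
import Fermat.Agent.S23.Trans

/-!
# S23 / WP-Σ: the space of `q`-expansions of cusp forms of level `Γ₀(N)` is stable under
`Aut(ℂ)` acting on coefficients
-/

set_option autoImplicit false

open UpperHalfPlane ModularForm CongruenceSubgroup
open scoped MatrixGroups ModularForm Manifold

namespace Fermat.Agent.S23

namespace SigmaAux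

/-- The "numerator" `∑ j, T ^ j * (adj(M) B)_j` in a commutative ring. -/
noncomputable def numR {R : Type*} [CommRing R] {n : ℕ} (T : R) (M : Matrix (Fin n) (Fin n) R)
    (B : Fin n → R) : R :=
  ∑ j : Fin n, T ^ (j : ℕ) * (M.adjugate.mulVec B) j

/-- Ring homomorphisms commute with the formation of the numerator. -/
theorem map_numR {R S : Type*} [CommRing R] [CommRing S] (φ : R →+* S) {n : ℕ} (T : R)
    (M : Matrix (Fin n) (Fin n) R) (B : Fin n → R) :
    φ (numR T M B) = numR (φ T) (φ.mapMatrix M) (φ ∘ B) := by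
  simp only [numR, map_sum, map_mul, map_pow]
  refine Finset.sum_congr rfl fun j _ => ?_
  rw [RingHom.map_mulVec, ← RingHom.mapMatrix_apply, RingHom.map_adjugate]

/-- Transfer of the monic relation from `F` to `G = D * F`. -/
theorem rel_transfer {R : Type*} [CommRing R] {n : ℕ} (D F G : R) (A : Fin n → R)
    (h1 : D * F = G)
    (h2 : F ^ n + ∑ s : Fin n, A s * F ^ (n - 1 - (s : ℕ)) = 0) :
    G ^ n + ∑ s : Fin n, A s * G ^ (n - 1 - (s : ℕ)) * D ^ ((s : ℕ) + 1) = 0 := by
  have key : G ^ n + ∑ s : Fin n, A s * G ^ (n - 1 - (s : ℕ)) * D ^ ((s : ℕ) + 1) =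
      D ^ n * (F ^ n + ∑ s : Fin n, A s * F ^ (n - 1 - (s : ℕ))) := by
    rw [mul_add, Finset.mul_sum, ← h1, mul_pow]
    congr 1
    refine Finset.sum_congr rfl fun s _ => ?_
    have hs : D ^ n = D ^ (n - 1 - (s : ℕ)) * D ^ ((s : ℕ) + 1) := by
      rw [← pow_add]
      congr 1
      have := s.isLt
      omega
    rw [mul_pow, hs]
    ring
  rw [key, h2, mul_zero]

/-- A power series with rational coefficients (in the form: a nonzero integer multiple is
integral) is fixed by any ring endomorphism of `ℂ`. -/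
theorem psMap_eq_self_of_isIntSeries_smul (σ : ℂ →+* ℂ) (P : PowerSeries ℂ) (c : ℤ) (hc : c ≠ 0)
    (h : IsIntSeries ((c : ℂ) • P)) : PowerSeries.map σ P = P := by
  refine PowerSeries.ext fun n => ?_
  rw [PowerSeries.coeff_map]
  obtain ⟨m, hm⟩ := h n
  rw [PowerSeries.coeff_smul] at hm
  have hc' : (c : ℂ) ≠ 0 := Int.cast_ne_zero.mpr hc
  have h1 : PowerSeries.coeff n P = (m : ℂ) / (c : ℂ) := by
    rw [eq_div_iff hc', mul_comm]
    exact hm
  rw [h1, map_div₀, map_intCast, map_intCast]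

/-- Applying a ring endomorphism of `ℂ` coefficientwise is injective. -/
theorem psMap_injective (σ : ℂ →+* ℂ) : Function.Injective (PowerSeries.map σ) := by
  intro P Q h
  refine PowerSeries.ext fun n => ?_
  have h1 := congrArg (PowerSeries.coeff n) h
  rw [PowerSeries.coeff_map, PowerSeries.coeff_map] at h1
  exact σ.injective h1

/-- Extensionality for elements of `niceAlg`. -/
theorem nice_ext {F G : niceAlg} (h : ∀ z : ℍ, evalAt z F = evalAt z G) : F = G := by
  apply Subtype.ext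
  funext z
  have h1 := h z
  rw [evalAt_apply, evalAt_apply] at h1
  exact h1

/-- The function underlying the determinant of a matrix of level-one forms. -/
theorem evalAt_det_ofL1 {n : ℕ}
    (m : ∀ i j : Fin n, ModularForm 𝒮ℒ ((((i : ℕ) + (j : ℕ) : ℕ) : ℤ) * 4)) (z : ℍ) :
    evalAt z (Matrix.det (Matrix.of fun i j => ofL1 (m i j))) = detFun m z := by
  have hM : (evalAt z).mapMatrix (Matrix.of fun i j => ofL1 (m i j)) =
      Matrix.of fun i j => m i j z := by
    refine Matrix.ext fun i j => ?_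
    rw [AlgHom.mapMatrix_apply, Matrix.map_apply, Matrix.of_apply, Matrix.of_apply, evalAt_apply,
      coe_ofL1]
  rw [AlgHom.map_det, hM]
  rfl

/-- The function underlying the numerator. -/
theorem evalAt_numR_ofL1 {N : ℕ} [NeZero N] {k : ℤ} {n : ℕ} (t : ModularForm (Gam N) 4)
    (m : ∀ i j : Fin n, ModularForm 𝒮ℒ ((((i : ℕ) + (j : ℕ) : ℕ) : ℤ) * 4))
    (b : ∀ j : Fin n, ModularForm 𝒮ℒ ((((j : ℕ) : ℤ) * 4) + k)) (z : ℍ) :
    evalAt z (numR (ofMF t) (Matrix.of fun i j => ofL1 (m i j)) (fun j => ofL1 (b j)))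
      = numFun t m b z := by
  have h0 : evalAt z (numR (ofMF t) (Matrix.of fun i j => ofL1 (m i j)) (fun j => ofL1 (b j))) =
      (evalAt z : niceAlg →+* ℂ)
        (numR (ofMF t) (Matrix.of fun i j => ofL1 (m i j)) (fun j => ofL1 (b j))) := rfl
  rw [h0, map_numR]
  have hM : (evalAt z : niceAlg →+* ℂ).mapMatrix (Matrix.of fun i j => ofL1 (m i j)) =
      Matrix.of fun i j => m i j z := by
    refine Matrix.ext fun i j => ?_
    rw [RingHom.mapMatrix_apply, Matrix.map_apply, Matrix.of_apply, Matrix.of_apply,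
      RingHom.coe_coe, evalAt_apply, coe_ofL1]
  have hB : (evalAt z : niceAlg →+* ℂ) ∘ (fun j => ofL1 (b j)) = fun j => b j z := by
    funext j
    rw [Function.comp_apply, RingHom.coe_coe, evalAt_apply, coe_ofL1]
  have hT : (evalAt z : niceAlg →+* ℂ) (ofMF t) = t z := by
    rw [RingHom.coe_coe, evalAt_apply, coe_ofMF]
  rw [hM, hB, hT]
  rfl

/-- A level-one form vanishing at `i∞` has zero constant coefficient. -/
theorem coeff_zero_of_isZeroAtImInfty {K : ℤ} (g : ModularForm 𝒮ℒ K)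
    (hg : IsZeroAtImInfty (g : ℍ → ℂ)) : PowerSeries.coeff 0 (qExpansion 1 g) = 0 := by
  rw [qExpansion_coeff_zero one_pos
    (ModularFormClass.analyticAt_cuspFunction_zero g one_pos one_mem_strictPeriods_SL)
    (SlashInvariantFormClass.periodic_comp_ofComplex g one_mem_strictPeriods_SL)]
  exact hg.valueAtInfty_eq_zero

/-- A level-one form with zero constant coefficient vanishes at `i∞`. -/
theorem isZeroAtImInfty_of_coeff_zero {K : ℤ} (g : ModularForm 𝒮ℒ K)
    (hg : PowerSeries.coeff 0 (qExpansion 1 g) = 0) : IsZeroAtImInfty (g : ℍ → ℂ) :=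
  CuspFormClass.zero_at_infty (ModularForm.toCuspForm g hg)

end SigmaAux

theorem exists_conj_cuspForm (N : ℕ) [NeZero N] (k : ℤ) (f : CuspForm (Gam N) k) (σ : ℂ →+* ℂ) :
    ∃ f' : CuspForm (Gam N) k,
      qExpansion 1 f' = PowerSeries.map σ (qExpansion 1 f) := by
  -- Step 0: the algebraic data
  let fM : ModularForm (Gam N) k := ModularFormClass.modularForm f
  have hfMf : (fM : ℍ → ℂ) = (f : ℍ → ℂ) := rfl
  obtain ⟨t, m, b, ⟨c, hc0, hct⟩, ⟨z0, hz0⟩, hrel⟩ := exists_alg_data N k fM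
  obtain ⟨a, ha, ha0'⟩ := exists_charpoly_coeff fM
  have ha0 : ∀ s, IsZeroAtImInfty (a s : ℍ → ℂ) := ha0' fun i => by
    rw [cj_congr fM f hfMf i]
    exact cj_isZeroAtImInfty f i
  -- Step 1: conjugate the level-one data
  choose m' hm' using fun i j => levelOne_conj _ (m i j) σ
  choose b' hb' using fun j => levelOne_conj _ (b j) σ
  choose a' ha' using fun s => levelOne_conj _ (a s) σ
  -- Step 2: identities in `niceAlg`
  let qE : niceAlg →+* PowerSeries ℂ := (qExp : niceAlg →+* PowerSeries ℂ)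
  let Φ : niceAlg →+* PowerSeries ℂ := (PowerSeries.map σ).comp qE
  have hqE : ∀ x : niceAlg, qE x = qExp x := fun _ => rfl
  have hΦ : ∀ x : niceAlg, Φ x = PowerSeries.map σ (qExp x) := fun _ => rfl
  let T : niceAlg := ofMF t
  let Fh : niceAlg := ofCF f
  let Mh : Matrix (Fin (psi N)) (Fin (psi N)) niceAlg := Matrix.of fun i j => ofL1 (m i j)
  let Mh' : Matrix (Fin (psi N)) (Fin (psi N)) niceAlg := Matrix.of fun i j => ofL1 (m' i j)
  let bh : Fin (psi N) → niceAlg := fun j => ofL1 (b j)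
  let bh' : Fin (psi N) → niceAlg := fun j => ofL1 (b' j)
  let Dh : niceAlg := Mh.det
  let Dh' : niceAlg := Mh'.det
  let Gh : niceAlg := SigmaAux.numR T Mh bh
  let Gh' : niceAlg := SigmaAux.numR T Mh' bh'
  have hcD : ∀ z, evalAt z Dh = detFun m z := SigmaAux.evalAt_det_ofL1 m
  have hcD' : ∀ z, evalAt z Dh' = detFun m' z := SigmaAux.evalAt_det_ofL1 m'
  have hcG : ∀ z, evalAt z Gh = numFun t m b z := SigmaAux.evalAt_numR_ofL1 t m b
  have hcG' : ∀ z, evalAt z Gh' = numFun t m' b' z := SigmaAux.evalAt_numR_ofL1 t m' b'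
  have hcF : ∀ z, evalAt z Fh = f z := fun z => by
    rw [evalAt_apply, coe_ofCF]
  have hcA : ∀ s z, evalAt z (ofL1 (a s)) = a s z := fun s z => by
    rw [evalAt_apply, coe_ofL1]
  have hcA' : ∀ s z, evalAt z (ofL1 (a' s)) = a' s z := fun s z => by
    rw [evalAt_apply, coe_ofL1]
  have I1 : Dh * Fh = Gh := by
    refine SigmaAux.nice_ext fun z => ?_
    rw [map_mul, hcD, hcG, hcF]
    exact hrel z
  have I2 : Fh ^ psi N + ∑ s : Fin (psi N), ofL1 (a s) * Fh ^ (psi N - 1 - (s : ℕ)) = 0 := by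
    refine SigmaAux.nice_ext fun z => ?_
    rw [map_add, map_pow, map_sum, map_zero]
    simp only [map_mul, map_pow, hcA, hcF]
    exact ha z
  have I3 : Gh ^ psi N +
      ∑ s : Fin (psi N), ofL1 (a s) * Gh ^ (psi N - 1 - (s : ℕ)) * Dh ^ ((s : ℕ) + 1) = 0 :=
    SigmaAux.rel_transfer Dh Fh Gh (fun s => ofL1 (a s)) I1 I2
  have hDh : Dh ≠ 0 := by
    intro h
    apply hz0
    have h1 : evalAt z0 Dh = 0 := by rw [h, map_zero]
    rw [hcD] at h1
    exact h1
  -- Step 3: apply `Φ`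
  have hM : Φ.mapMatrix Mh = qE.mapMatrix Mh' := by
    refine Matrix.ext fun i j => ?_
    show Φ (ofL1 (m i j)) = qE (ofL1 (m' i j))
    rw [hΦ, hqE, qExp_ofL1, qExp_ofL1, hm']
  have hB : Φ ∘ bh = qE ∘ bh' := by
    funext j
    show Φ (ofL1 (b j)) = qE (ofL1 (b' j))
    rw [hΦ, hqE, qExp_ofL1, qExp_ofL1, hb']
  have hT : Φ T = qE T := by
    rw [hΦ, hqE, qExp_ofMF]
    exact SigmaAux.psMap_eq_self_of_isIntSeries_smul σ _ c hc0 hct
  have hA : ∀ s, Φ (ofL1 (a s)) = qE (ofL1 (a' s)) := fun s => by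
    rw [hΦ, hqE, qExp_ofL1, qExp_ofL1, ha']
  have hF : Φ Fh = PowerSeries.map σ (qExpansion 1 f) := by
    rw [hΦ, qExp_ofCF]
  have hD : Φ Dh = qE Dh' := by
    rw [RingHom.map_det, RingHom.map_det, hM]
  have hG : Φ Gh = qE Gh' := by
    rw [SigmaAux.map_numR, SigmaAux.map_numR, hM, hB, hT]
  have J1 : qE Dh' * PowerSeries.map σ (qExpansion 1 f) = qE Gh' := by
    have h1 := congrArg Φ I1
    rw [map_mul, hD, hG, hF] at h1
    exact h1
  have J2 : qE Dh' ≠ 0 := by
    rw [← hD]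
    intro h
    apply hDh
    apply qExp_injective
    apply SigmaAux.psMap_injective σ
    rw [map_zero, map_zero, ← hΦ]
    exact h
  have J3 : Gh' ^ psi N +
      ∑ s : Fin (psi N), ofL1 (a' s) * Gh' ^ (psi N - 1 - (s : ℕ)) * Dh' ^ ((s : ℕ) + 1) = 0 := by
    apply qExp_injective
    rw [← hqE, ← hqE]
    have h1 := congrArg Φ I3
    simp only [map_add, map_pow, map_sum, map_mul, map_zero, hD, hG, hA] at h1 ⊢
    exact h1
  -- Step 4: the division lemma
  have hD0 : ∃ z, detFun m' z ≠ 0 := by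
    by_contra h
    apply J2
    have h1 : Dh' = 0 := by
      refine SigmaAux.nice_ext fun z => ?_
      rw [hcD', map_zero]
      by_contra hz
      exact h ⟨z, hz⟩
    rw [h1, map_zero]
  have ha'0 : ∀ s, IsZeroAtImInfty (a' s : ℍ → ℂ) := by
    intro s
    apply SigmaAux.isZeroAtImInfty_of_coeff_zero
    rw [ha' s, PowerSeries.coeff_map, SigmaAux.coeff_zero_of_isZeroAtImInfty (a s) (ha0 s),
      map_zero]
  have hrel' : ∀ z : ℍ, numFun t m' b' z ^ psi N +
      ∑ s : Fin (psi N), a' s z * numFun t m' b' z ^ (psi N - 1 - (s : ℕ)) *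
        detFun m' z ^ ((s : ℕ) + 1) = 0 := by
    intro z
    have h1 := congrArg (evalAt z) J3
    simp only [map_add, map_pow, map_sum, map_mul, map_zero, hcD', hcG', hcA'] at h1
    exact h1
  obtain ⟨F, hF'⟩ := division_cusp N k (psi N) (detFun m') (numFun t m' b') (detFun_mdiff m')
    (numFun_mdiff t m' b') hD0 (fun γ hγ z => numFun_trans t m' b' γ hγ z) a' ha'0 hrel'
  -- Step 5: conclusion
  refine ⟨F, ?_⟩
  have h5 : ofCF F * Dh' = Gh' := by
    refine SigmaAux.nice_ext fun z => ?_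
    rw [map_mul, hcD', hcG', evalAt_apply, coe_ofCF]
    exact hF' z
  have h6 : qE (ofCF F) * qE Dh' = qE Gh' := by
    rw [← map_mul, h5]
  have h7 : qE Dh' * qExpansion 1 F = qE Dh' * PowerSeries.map σ (qExpansion 1 f) := by
    rw [J1, ← h6, mul_comm, hqE (ofCF F), qExp_ofCF]
  exact mul_left_cancel₀ J2 h7

end Fermat.Agent.S23
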