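import Fermat.Agent.S23.Descent
import Fermat.Agent.S23.Nice
import Fermat.Agent.S23.Sigma
import Fermat.Prelude.Thm_ModularForm_sturm_bound_Gamma0

/-!
# S23 / WP-R: cusp forms with rational `q`-expansion span the space of cusp forms
-/

set_option autoImplicit false

open UpperHalfPlane ModularForm CongruenceSubgroup
open scoped MatrixGroups ModularForm Manifold

namespace Fermat.Agent.S23

namespace RatSpanAux

/-- The Sturm bound for `Γ₀(N)` in weight `k`. -/
noncomputable def sturmB (N : ℕ) (k : ℤ) : ℕ :=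
  (k * (CongruenceSubgroup.Gamma0 N).index).toNat / 12

/-- The `q`-expansion is additive on cusp forms. -/
theorem qExpansion_add_cuspForm {N : ℕ} [NeZero N] {k : ℤ} (f g : CuspForm (Gam N) k) :
    qExpansion 1 (⇑(f + g)) = qExpansion 1 f + qExpansion 1 g := by
  rw [FunLike.coe_add]
  exact qExpansion_add (isNice_cuspForm f).analyticAt (isNice_cuspForm g).analyticAt

/-- The `q`-expansion is `ℂ`-homogeneous on cusp forms. -/
theorem qExpansion_smul_cuspForm {N : ℕ} [NeZero N] {k : ℤ} (c : ℂ) (f : CuspForm (Gam N) k) :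
    qExpansion 1 (⇑(c • f)) = c • qExpansion 1 f := by
  rw [FunLike.coe_smul]
  exact qExpansion_smul (isNice_cuspForm f).analyticAt c

/-- The truncated `q`-expansion map: the first `B + 1` coefficients, `B` the Sturm bound. -/
noncomputable def tau (N : ℕ) [NeZero N] (k : ℤ) :
    CuspForm (Gam N) k →ₗ[ℂ] (Fin (sturmB N k + 1) → ℂ) where
  toFun f i := PowerSeries.coeff (i : ℕ) (qExpansion 1 f)
  map_add' f g := by
    funext i
    simp only [qExpansion_add_cuspForm, map_add, Pi.add_apply]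
  map_smul' c f := by
    funext i
    simp only [qExpansion_smul_cuspForm, PowerSeries.coeff_smul, Pi.smul_apply, smul_eq_mul,
      RingHom.id_apply]

theorem tau_apply {N : ℕ} [NeZero N] {k : ℤ} (f : CuspForm (Gam N) k)
    (i : Fin (sturmB N k + 1)) :
    tau N k f i = PowerSeries.coeff (i : ℕ) (qExpansion 1 f) := rfl

/-- By the Sturm bound, the truncated `q`-expansion map is injective. -/
theorem tau_injective (N : ℕ) [NeZero N] (k : ℤ) : Function.Injective (tau N k) := by
  rw [← LinearMap.ker_eq_bot, LinearMap.ker_eq_bot']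
  intro f hf
  have h0 : (ModularFormClass.modularForm f : ModularForm (CongruenceSubgroup.Gamma0 N) k) = 0 := by
    apply ModularForm.sturm_bound_Gamma0 N
    intro n hn
    exact congrFun hf ⟨n, Nat.lt_succ_of_le hn⟩
  ext z
  exact DFunLike.congr_fun h0 z

/-- Conjugating the `q`-expansion of a cusp form by an automorphism of `ℂ` gives the
`q`-expansion of a cusp form. -/
theorem exists_conj (N : ℕ) [NeZero N] (k : ℤ) (f : CuspForm (Gam N) k) (σ : ℂ ≃+* ℂ) :
    ∃ f' : CuspForm (Gam N) k,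
      ∀ n, PowerSeries.coeff n (qExpansion 1 f') = σ (PowerSeries.coeff n (qExpansion 1 f)) := by
  obtain ⟨f', hf'⟩ := exists_conj_cuspForm N k f (σ : ℂ →+* ℂ)
  refine ⟨f', fun n => ?_⟩
  rw [hf', PowerSeries.coeff_map]
  rfl

/-- A cusp form whose first `B + 1` coefficients are rational has rational `q`-expansion. -/
theorem isRatSeries_of_tau_rat (N : ℕ) [NeZero N] (k : ℤ) (f : CuspForm (Gam N) k)
    (h : ∀ i, ∃ r : ℚ, tau N k f i = (r : ℂ)) : IsRatSeries (qExpansion 1 f) := by
  intro n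
  apply exists_rat_of_fixed
  intro σ
  obtain ⟨f', hf'⟩ := exists_conj N k f σ
  have h1 : tau N k f' = tau N k f := by
    funext i
    obtain ⟨r, hr⟩ := h i
    rw [tau_apply, hf', ← tau_apply, hr, map_ratCast]
  have h2 : f' = f := tau_injective N k h1
  rw [← hf' n, h2]

end RatSpanAux

/-- Cusp forms of level `Γ₀(N)` with rational `q`-expansion span the space of cusp forms. -/
theorem cuspForm_span_rat (N : ℕ) [NeZero N] (k : ℤ) :
    Submodule.span ℂ {f : CuspForm (Gam N) k | IsRatSeries (qExpansion 1 f)} = ⊤ := by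
  rw [eq_top_iff]
  intro f _
  have hW : ∀ σ : ℂ ≃+* ℂ, ∀ w ∈ LinearMap.range (RatSpanAux.tau N k),
      (fun i => σ (w i)) ∈ LinearMap.range (RatSpanAux.tau N k) := by
    rintro σ w ⟨g, rfl⟩
    obtain ⟨g', hg'⟩ := RatSpanAux.exists_conj N k g σ
    exact ⟨g', funext fun i => hg' i⟩
  have h1 := span_rat_of_stable _ (LinearMap.range (RatSpanAux.tau N k)) hW
  have h2 : {w | w ∈ LinearMap.range (RatSpanAux.tau N k) ∧ ∀ i, ∃ r : ℚ, w i = (r : ℂ)} ⊆
      (RatSpanAux.tau N k) '' {f : CuspForm (Gam N) k | IsRatSeries (qExpansion 1 f)} := by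
    rintro w ⟨⟨g, rfl⟩, hrat⟩
    exact ⟨g, RatSpanAux.isRatSeries_of_tau_rat N k g hrat, rfl⟩
  have h3 : RatSpanAux.tau N k f ∈ Submodule.span ℂ
      ((RatSpanAux.tau N k) '' {f : CuspForm (Gam N) k | IsRatSeries (qExpansion 1 f)}) :=
    Submodule.span_mono h2 (h1 ⟨f, rfl⟩)
  rw [← Submodule.map_span] at h3
  obtain ⟨g, hg, hgf⟩ := h3
  rw [← RatSpanAux.tau_injective N k hgf]
  exact hg

end Fermat.Agent.S23
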